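import Fermat.Agent.H63.SS2.Maps
import Fermat.Agent.H11.SS2.Contract
import Fermat.Agent.H14.S31LatSide
import Fermat.Agent.H23.EsA.Defs
import Fermat.Agent.H29.ESB.HeckeFinal
import Fermat.Agent.H34.S31Kum.KumChar
import Fermat.Agent.H52.ESS36

/-!
# P-SS2 (S36, Carayol), J-SIDE: interfaces (helper63, with sub-lead helper52)

Notation: `q` prime, `q ∣ L`, level `L q` (so `q² ∣ L q`).  Objects of
`Fermat.Agent.H63.SS2.Maps`: `pushA`, `pushB` (push-forward of divisor classes along the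
prelude maps `heckeAlphaBar`, `heckeBetaBar`), `newPart L q = ker pushA ⊓ ker pushB`,
`corA`, `corB` (operators of the families `corFamA L q k = [[1,0],[L k,1]]`,
`corFamB q k = [[1,k],[0,q]]`, `k : ZMod q`).

All statements are `Prop`-valued definitions; rows `SS2-J*`.

* group side: `CorRewStatement` (J1), `CorHeckeAStatement`, `CorHeckeBStatement` (J2), `CorResStatement` (J3);
* periods: `NewClassStatement` (J4);
* analytic: `DegDegreeAStatement`, `DegDegreeBStatement` (J5), `DegNormRepAStatement`,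
  `DegNormRepBStatement` (J6), `KummerPushStatement` (J7),
  `KummerPullStatement` (J7');
* Kummer maps: `KummerCharStatement` (J8a), `KummerNewStatement` (J8b);
* `(KC)_J`: `KCJStatement`, `BridgeStatement` (J9), `LevelChangeStatement` (J10).
-/

set_option autoImplicit false

noncomputable section

namespace Fermat.Agent.H63.SS2

open AlgebraicCurve ModularCurve CongruenceSubgroup Matrix.SpecialLinearGroup UpperHalfPlane
open ModularCurve.Period Fermat.Agent.H21 Fermat.Agent.H14 Fermat.Agent.H23.EsA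
open scoped MatrixGroups Manifold

/-! ## Group side -/

/-- **J1 (COR-REW).**  For `q` prime, `q ∣ L`, the two families are rewriting data from
`Γ₀(L q)` to `Γ₀(L)` inside `GL₂(ℝ)`:
`corFamA L q k * γ = κ * corFamA L q k'` and `corFamB q k * γ = κ * corFamB q k'`
with `κ ∈ Γ₀(L q)` for `γ ∈ Γ₀(L)`, and the cosets are distinct. -/
def CorRewStatement : Prop :=
  ∀ (L q : ℕ) [NeZero L] [NeZero q], q.Prime → q ∣ L →
    Rew2 (gamma0ToGL (L * q)) (gamma0ToGL L) (corFamA L q) ∧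
    Rew2 (gamma0ToGL (L * q)) (gamma0ToGL L) (corFamB q)

/-- **J2A (COR-HECKE-A).**  The corestriction `corA` commutes with the cohomological Hecke
operators `T_ℓ`, `ℓ ∤ L q`. -/
def CorHeckeAStatement : Prop :=
  ∀ (L q : ℕ) [NeZero L] [NeZero q], q.Prime → q ∣ L →
    ∀ (ℓ : ℕ) (hℓ : ℓ.Prime) (hℓL : ¬ ℓ ∣ L) (hℓM : ¬ ℓ ∣ L * q)
      (A : Type) [AddCommGroup A] (ψ : Additive (Gamma0 (L * q)) →+ A),
      corA L q A (cohT (L * q) ℓ hℓ hℓM A ψ) = cohT L ℓ hℓ hℓL A (corA L q A ψ)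

/-- **J2B (COR-HECKE-B).**  The corestriction `corB` commutes with the cohomological Hecke
operators `T_ℓ`, `ℓ ∤ L q`. -/
def CorHeckeBStatement : Prop :=
  ∀ (L q : ℕ) [NeZero L] [NeZero q], q.Prime → q ∣ L →
    ∀ (ℓ : ℕ) (hℓ : ℓ.Prime) (hℓL : ¬ ℓ ∣ L) (hℓM : ¬ ℓ ∣ L * q)
      (A : Type) [AddCommGroup A] (ψ : Additive (Gamma0 (L * q)) →+ A),
      corB L q A (cohT (L * q) ℓ hℓ hℓM A ψ) = cohT L ℓ hℓ hℓL A (corB L q A ψ)

/-- Restriction of homomorphisms from `Γ₀(N)` to `Γ₀(N')` for `N ∣ N'`. -/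
def resHom {N N' : ℕ} (h : N ∣ N') (A : Type*) [AddCommGroup A]
    (φ : Additive (Gamma0 N) →+ A) : Additive (Gamma0 N') →+ A :=
  φ.comp (MonoidHom.toAdditive (Subgroup.inclusion (by
    intro γ hγ
    rw [Gamma0_mem] at hγ ⊢
    have h1 : ((N' : ℕ) : ℤ) ∣ (γ : Matrix (Fin 2) (Fin 2) ℤ) 1 0 :=
      (ZMod.intCast_zmod_eq_zero_iff_dvd _ _).mp hγ
    exact (ZMod.intCast_zmod_eq_zero_iff_dvd _ _).mpr
      (dvd_trans (Int.natCast_dvd_natCast.mpr h) h1) : Gamma0 N' ≤ Gamma0 N)))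

/-- **J3 (COR-RES).**  Corestriction at `q` commutes with restriction to level `r`, `r` prime to
`q`:  `cor^{(L r)} ∘ res = res ∘ cor^{(L)}`. -/
def CorResStatement : Prop :=
  ∀ (L q r : ℕ) [NeZero L] [NeZero q] [NeZero r], q.Prime → q ∣ L → Nat.Coprime r q →
    ∀ (A : Type) [AddCommGroup A] (ψ : Additive (Gamma0 (L * q)) →+ A),
      corA (L * r) q A (resHom (N := L * q) (N' := L * r * q) ⟨r, by ring⟩ A ψ)
        = resHom (N := L) (N' := L * r) ⟨r, rfl⟩ A (corA L q A ψ) ∧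
      corB (L * r) q A (resHom (N := L * q) (N' := L * r * q) ⟨r, by ring⟩ A ψ)
        = resHom (N := L) (N' := L * r) ⟨r, rfl⟩ A (corB L q A ψ)

/-! ## Periods -/

/-- **J4 (NEW-C).**  The period class of a newform of level `L q` (`q ∣ L`) is killed by both
corestrictions.  (Otherwise S21 at level `L` and the Hecke equivariance J2A/J2B give a nonzero
eigenvector of all `T_ℓ`, `ℓ ∤ L`, in `S₂(Γ₀(L))` with the eigenvalues of `g`, hence a
normalised eigenform of level `L`: contradiction with `IsNewform`.) -/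
def NewClassStatement : Prop :=
  ∀ (L q : ℕ) [NeZero L] [NeZero q], q.Prime → q ∣ L →
    ∀ g : CuspForm (Gamma0 (L * q)) 2, g.IsNewform →
      corA L q ℂ (periodMap (L * q) g) = 0 ∧ corB L q ℂ (periodMap (L * q) g) = 0

/-! ## The analytic rows (over `ℂ`) -/

/-- **J5A (DEG-A).**  The inclusion `α : F_L → F_{L q}` has degree `q` over `ℂ`
(`q` prime, `q ∣ L`). -/
def DegDegreeAStatement : Prop :=
  ∀ (L q : ℕ) [NeZero L] [NeZero q], q.Prime → q ∣ L →
    finrankAlong ℂ (heckeAlphaBar ℂ L q) = q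

/-- **J5B (DEG-B).**  The map `β : F_L → F_{L q}`, `t ↦ t ^ q`, has degree `q` over `ℂ`
(`q` prime, `q ∣ L`). -/
def DegDegreeBStatement : Prop :=
  ∀ (L q : ℕ) [NeZero L] [NeZero q], q.Prime → q ∣ L →
    finrankAlong ℂ (heckeBetaBar ℂ L q) = q

/-- **J6A (NORMREP-A)** (analytic; twin of `Fermat.Agent.H21.EsC.NormRepStatement`).
If the holomorphic function `F` represents `f ∈ FC (L q)`, then
`z ↦ ∏ k, F ([[1,0],[L k,1]] z)` represents the norm of `f` along `α`. -/
def DegNormRepAStatement : Prop :=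
  ∀ (L q : ℕ) [NeZero L] [NeZero q], q.Prime → q ∣ L →
    ∀ (f : ↥(FC (L * q))) (F : ℍ → ℂ), MDiff F → Rep (L * q) F f →
      Rep L (fun z => ∏ k : ZMod q, F (corFamA L q k • z))
        (Fermat.Agent.H11.SS2.ss2NormAlong (heckeAlphaBar ℂ L q) f)

/-- **J6B (NORMREP-B)** (analytic).  If the holomorphic function `F` represents
`f ∈ FC (L q)`, then `z ↦ ∏ k, F ((z + k) / q)` represents the norm of `f` along `β`. -/
def DegNormRepBStatement : Prop :=
  ∀ (L q : ℕ) [NeZero L] [NeZero q], q.Prime → q ∣ L →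
    ∀ (f : ↥(FC (L * q))) (F : ℍ → ℂ), MDiff F → Rep (L * q) F f →
      Rep L (fun z => ∏ k : ZMod q, F (corFamB q k • z))
        (Fermat.Agent.H11.SS2.ss2NormAlong (heckeBetaBar ℂ L q) f)

/-- The corestriction `corA` on multiplicative characters. -/
def corCharA (L q : ℕ) [NeZero q] (χ : ↥(Gamma0 (L * q)) →* ℂˣ) : ↥(Gamma0 L) →* ℂˣ :=
  MonoidHom.toAdditive.symm (corA L q (Additive ℂˣ) (MonoidHom.toAdditive χ))

/-- The corestriction `corB` on multiplicative characters. -/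
def corCharB (L q : ℕ) [NeZero q] (χ : ↥(Gamma0 (L * q)) →* ℂˣ) : ↥(Gamma0 L) →* ℂˣ :=
  MonoidHom.toAdditive.symm (corB L q (Additive ℂˣ) (MonoidHom.toAdditive χ))

/-- **J7 (KUM-PUSH).**  The torsion–character relation of ES-A intertwines the push-forwards
of divisor classes with the corestrictions of characters. -/
def KummerPushStatement : Prop :=
  ∀ (L q : ℕ) [NeZero L] [NeZero q], q.Prime → q ∣ L → ∀ m : ℕ, 0 < m →
    ∀ (x : Pic0 ℂ ↥(FC (L * q))) (χ : ↥(Gamma0 (L * q)) →* ℂˣ),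
      TorsionCharRel (L * q) m x χ →
      TorsionCharRel L m (pushA ℂ L q x) (corCharA L q χ) ∧
      TorsionCharRel L m (pushB ℂ L q x) (corCharB L q χ)

/-- The inclusion `F_N ⊆ F_{N'}` for `N ∣ N'`. -/
def levelIncl (K : Type) [Field K] [Algebra ℚ K] {N N' : ℕ} [NeZero N] [NeZero N']
    (h : N ∣ N') :
    ↥(laurentBaseChange K (modularFunctionFieldFull N)) →ₐ[K]
      ↥(laurentBaseChange K (modularFunctionFieldFull N')) :=
  IntermediateField.inclusion (Fermat.Agent.H9.ESD.lc_laurentBaseChange_mono K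
    (full_degeneracy_le h))

/-- The pull-back of divisors along `levelIncl` preserves principal divisors and degree zero;
`LevelPull K h f` says that `f` is the induced map `Pic⁰(F_N) → Pic⁰(F_{N'})`. -/
def IsLevelPull (K : Type) [Field K] [Algebra ℚ K] {N N' : ℕ} [NeZero N] [NeZero N']
    (h : N ∣ N')
    (f : Pic0 K ↥(laurentBaseChange K (modularFunctionFieldFull N)) →+
      Pic0 K ↥(laurentBaseChange K (modularFunctionFieldFull N'))) : Prop :=
  ∃ (hφ : (levelIncl K h).toRingHom.IsIntegral)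
    (_ : HasPrincipalDivisors K ↥(laurentBaseChange K (modularFunctionFieldFull N')))
    (hFI : FundamentalIdentityAlong K (levelIncl K h) hφ),
    f = Fermat.Agent.H71.SS.pic0PullbackAlong (levelIncl K h) hφ hFI

/-- **J7' (KUM-PULL).**  The torsion–character relation intertwines the pull-back of divisor
classes along `F_N ⊆ F_{N'}` with the restriction of characters. -/
def KummerPullStatement : Prop :=
  ∀ (N N' : ℕ) [NeZero N] [NeZero N'] (h : N ∣ N'),
    ∃ f : Pic0 ℂ ↥(FC N) →+ Pic0 ℂ ↥(FC N'), IsLevelPull ℂ h f ∧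
      ∀ (m : ℕ), 0 < m → ∀ (x : Pic0 ℂ ↥(FC N)) (χ : ↥(Gamma0 N) →* ℂˣ),
        TorsionCharRel N m x χ →
        TorsionCharRel N' m (f x)
          (MonoidHom.toAdditive.symm
            (resHom h (Additive ℂˣ) (MonoidHom.toAdditive χ)))

/-! ## Kummer maps -/

/-- **J8a (KUM-CHAR).**  The Kummer embedding of `Fermat.Agent.H14.KummerEmbeddingStatement`
(landed by helper34) with its characterisation: the descent of `κ ψ` to `ℂ` has Kummer
character `γ ↦ ζ ^ ψ(γ)`. -/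
def KummerCharStatement (N : ℕ) [NeZero N] : Prop :=
  ∀ (ι : AlgebraicClosure ℚ →+* ℂ) (m : ℕ), 0 < m → ∀ ζ : ℂˣ, IsPrimitiveRoot ζ m →
    ∃ κ : S31Lat N →+ JZero N,
      (∀ ψ : S31Lat N, m • κ ψ = 0) ∧
      (∀ ψ : S31Lat N, κ ψ = 0 → ∃ ψ' : S31Lat N, ψ = m • ψ') ∧
      (∀ (ℓ : ℕ) (hℓ : ℓ.Prime) (hℓN : ¬ ℓ ∣ N) (ψ ψ' : S31Lat N),
        (ψ' : Additive ↥(Gamma0 N) →+ ℤ)
            = cohT N ℓ hℓ hℓN ℤ (ψ : Additive ↥(Gamma0 N) →+ ℤ) →
          κ ψ' = heckeOperatorBar N ⟨ℓ, hℓ⟩ (κ ψ)) ∧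
      ∀ ψ : S31Lat N, TorsionCharRel N m (Fermat.Agent.H29.descentHom N ι (κ ψ))
        (Fermat.Agent.H34.kumChar ζ (ψ : Additive ↥(Gamma0 N) →+ ℤ))

/-- **J8b (KUM-NEW).**  A torsion class of `J₀(L q)(ℚ̄)` whose Kummer character (after descent to
`ℂ`) is killed by `corCharA` is killed by `pushA`; same for `B`. -/
def KummerNewStatement : Prop :=
  ∀ (L q : ℕ) [NeZero L] [NeZero q], q.Prime → q ∣ L →
    ∀ (ι : AlgebraicClosure ℚ →+* ℂ) (m : ℕ), 0 < m →
      ∀ (x : JZero (L * q)) (χ : ↥(Gamma0 (L * q)) →* ℂˣ),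
        TorsionCharRel (L * q) m (Fermat.Agent.H29.descentHom (L * q) ι x) χ →
        (corCharA L q χ = 1 ↔ pushA (AlgebraicClosure ℚ) L q x = 0) ∧
        (corCharB L q χ = 1 ↔ pushB (AlgebraicClosure ℚ) L q x = 0)

/-! ## `(KC)_J` -/

/-- **(KC)_J** at level `L q`: the inertia invariants of the torsion prime to `q` of the
`q`-new part are killed by a fixed `c > 0`. -/
def KCJStatement (L q : ℕ) [NeZero L] [NeZero q] : Prop :=
  ∀ (A : ValuationSubring (AlgebraicClosure ℚ)), A.LiesOverPrime q →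
    ∃ c : ℕ, 0 < c ∧ ∀ (m : ℕ), 0 < m → ¬ q ∣ m →
      ∀ x : JZero (L * q), m • x = 0 → x ∈ newPart L q →
        (∀ σ ∈ A.inertiaSubgroupIn ℚ, σ • x = x) → c • x = 0

/-- **J9 (BRIDGE).**  `(KC-FF) ⇒ (KC)_J` at the same level (divisor algebra over `ℚ̄`). -/
def BridgeStatement : Prop :=
  ∀ (L q : ℕ) [NeZero L] [NeZero q], q.Prime →
    Fermat.Agent.H11.SS2.NewInvariantFFStatement L q → KCJStatement L q

/-- **J10 (LEVEL-CHANGE).**  `(KC)_J` at level `(L r) q` implies `(KC)_J` at level `L q`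
(`r` prime, `r ≠ q`). -/
def LevelChangeStatement : Prop :=
  ∀ (L q r : ℕ) [NeZero L] [NeZero q] [NeZero r], q.Prime → q ∣ L → r.Prime → r ≠ q →
    KCJStatement (L * r) q → KCJStatement L q

end Fermat.Agent.H63.SS2

end
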