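import Mathlib

/-!
# P-SS2 (S36), J-side: two-group transfers (helper63)

Generalisation of `Fermat.Agent.H21.Rewriting` to two groups.  Let `ι' : Γ' →* G` (injective) and
`ι : Γ →* G` be group homomorphisms and `α : X → G` a finite family such that

* (rewriting) for `γ : Γ`, `x : X` there are `y : X`, `κ : Γ'` with `α x * ι γ = ι' κ * α y`;
* (separation) `α x = ι' κ * α y` forces `x = y`.

Then `Rew2.op : (Additive Γ' →+ A) →+ (Additive Γ →+ A)`, `(op φ) γ = ∑ x, φ (κ_x)`.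
Instances: Hecke operators (`Γ' = Γ`), corestrictions along the degeneracy maps
(`α` = coset representatives), restrictions (`X = Unit`).

Main results: `op_apply_of_rewriting`, `op_comp` (naturality in `A`), `op_kills` (cycle
argument), `of_equiv` / `op_eq_of_equiv` (change of representatives), `comp` / `op_op`
(composition = product family), `op_op_comm` (commutation criterion).
-/

set_option autoImplicit false

namespace Fermat.Agent.H63.SS2

open Finset

/-- Two-group rewriting data. -/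
structure Rew2 {G Γ' Γ X : Type*} [Group G] [Group Γ'] [Group Γ] (ι' : Γ' →* G) (ι : Γ →* G)
    (α : X → G) : Prop where
  inj : Function.Injective ι'
  rw : ∀ (γ : Γ) (x : X), ∃ (y : X) (κ : Γ'), α x * ι γ = ι' κ * α y
  sep : ∀ (x y : X) (κ : Γ'), α x = ι' κ * α y → x = y

namespace Rew2

variable {G Γ' Γ X : Type*} [Group G] [Group Γ'] [Group Γ] {ι' : Γ' →* G} {ι : Γ →* G}
  {α : X → G}

theorem unique (h : Rew2 ι' ι α) {g : G} {y y' : X} {κ κ' : Γ'}
    (e : g = ι' κ * α y) (e' : g = ι' κ' * α y') : y = y' ∧ κ = κ' := by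
  have h1 : α y = ι' (κ⁻¹ * κ') * α y' := by
    rw [map_mul, map_inv, mul_assoc, ← e', e, inv_mul_cancel_left]
  have hy : y = y' := h.sep y y' _ h1
  subst hy
  refine ⟨rfl, h.inj ?_⟩
  exact mul_right_cancel (e.symm.trans e')

/-- The target index of the rewriting of `α x * ι γ`. -/
noncomputable def tgt (h : Rew2 ι' ι α) (γ : Γ) (x : X) : X := (h.rw γ x).choose

/-- The `Γ'`-part of the rewriting of `α x * ι γ`. -/
noncomputable def kap (h : Rew2 ι' ι α) (γ : Γ) (x : X) : Γ' := (h.rw γ x).choose_spec.choose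

theorem spec (h : Rew2 ι' ι α) (γ : Γ) (x : X) :
    α x * ι γ = ι' (h.kap γ x) * α (h.tgt γ x) :=
  (h.rw γ x).choose_spec.choose_spec

theorem tgt_eq (h : Rew2 ι' ι α) {γ : Γ} {x y : X} {κ : Γ'} (e : α x * ι γ = ι' κ * α y) :
    h.tgt γ x = y :=
  (h.unique (h.spec γ x) e).1

theorem kap_eq (h : Rew2 ι' ι α) {γ : Γ} {x y : X} {κ : Γ'} (e : α x * ι γ = ι' κ * α y) :
    h.kap γ x = κ :=
  (h.unique (h.spec γ x) e).2

@[simp] theorem tgt_one (h : Rew2 ι' ι α) (x : X) : h.tgt 1 x = x :=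
  h.tgt_eq (κ := 1) (by simp)

@[simp] theorem kap_one (h : Rew2 ι' ι α) (x : X) : h.kap 1 x = 1 :=
  h.kap_eq (y := x) (by simp)

theorem spec_mul (h : Rew2 ι' ι α) (γ γ' : Γ) (x : X) :
    α x * ι (γ * γ') = ι' (h.kap γ x * h.kap γ' (h.tgt γ x)) * α (h.tgt γ' (h.tgt γ x)) := by
  rw [map_mul, ← mul_assoc, h.spec γ x, mul_assoc, h.spec γ' (h.tgt γ x), ← mul_assoc, map_mul]

theorem tgt_mul (h : Rew2 ι' ι α) (γ γ' : Γ) (x : X) :
    h.tgt (γ * γ') x = h.tgt γ' (h.tgt γ x) :=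
  h.tgt_eq (h.spec_mul γ γ' x)

theorem kap_mul (h : Rew2 ι' ι α) (γ γ' : Γ) (x : X) :
    h.kap (γ * γ') x = h.kap γ x * h.kap γ' (h.tgt γ x) :=
  h.kap_eq (h.spec_mul γ γ' x)

/-- The permutation of the index set induced by `γ`. -/
noncomputable def perm (h : Rew2 ι' ι α) (γ : Γ) : Equiv.Perm X where
  toFun := h.tgt γ
  invFun := h.tgt γ⁻¹
  left_inv x := by rw [← h.tgt_mul, mul_inv_cancel, h.tgt_one]
  right_inv x := by rw [← h.tgt_mul, inv_mul_cancel, h.tgt_one]

@[simp] theorem perm_apply (h : Rew2 ι' ι α) (γ : Γ) (x : X) : h.perm γ x = h.tgt γ x := rfl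

theorem perm_mul (h : Rew2 ι' ι α) (γ γ' : Γ) : h.perm (γ * γ') = h.perm γ' * h.perm γ := by
  ext x
  simp [h.tgt_mul]

@[simp] theorem perm_one (h : Rew2 ι' ι α) : h.perm 1 = 1 := by
  ext x
  simp

theorem perm_pow (h : Rew2 ι' ι α) (γ : Γ) (k : ℕ) : h.perm (γ ^ k) = h.perm γ ^ k := by
  induction k with
  | zero => simp
  | succ k ih => rw [pow_succ, h.perm_mul, ih, pow_succ']

theorem tgt_pow (h : Rew2 ι' ι α) (γ : Γ) (k : ℕ) (x : X) :
    h.tgt (γ ^ k) x = (h.perm γ ^ k) x := by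
  rw [← h.perm_pow, perm_apply]

/-- Any rewriting of `γ` is a bijection of the index set. -/
theorem bijective_of_rewriting (h : Rew2 ι' ι α) (γ : Γ) (σ : X → X) (κ : X → Γ')
    (e : ∀ x, α x * ι γ = ι' (κ x) * α (σ x)) : Function.Bijective σ := by
  have hσ : σ = h.perm γ := funext fun x => (h.tgt_eq (e x)).symm
  rw [hσ]
  exact (h.perm γ).bijective

section op

variable [Fintype X] {A B : Type*} [AddCommGroup A] [AddCommGroup B]

/-- The value of the operator at `γ`. -/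
noncomputable def opFun (h : Rew2 ι' ι α) (φ : Additive Γ' →+ A) (γ : Γ) : A :=
  ∑ x, φ (Additive.ofMul (h.kap γ x))

theorem opFun_one (h : Rew2 ι' ι α) (φ : Additive Γ' →+ A) : h.opFun φ 1 = 0 := by
  simp [opFun]

theorem opFun_mul (h : Rew2 ι' ι α) (φ : Additive Γ' →+ A) (γ γ' : Γ) :
    h.opFun φ (γ * γ') = h.opFun φ γ + h.opFun φ γ' := by
  simp only [opFun, h.kap_mul, ofMul_mul, map_add, sum_add_distrib]
  congr 1
  exact Equiv.sum_comp (h.perm γ) (fun y => φ (Additive.ofMul (h.kap γ' y)))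

/-- The operator applied to a homomorphism. -/
noncomputable def opHom (h : Rew2 ι' ι α) (φ : Additive Γ' →+ A) : Additive Γ →+ A where
  toFun γ := h.opFun φ (Additive.toMul γ)
  map_zero' := h.opFun_one φ
  map_add' γ γ' := h.opFun_mul φ (Additive.toMul γ) (Additive.toMul γ')

/-- The operator `Hom(Γ', A) → Hom(Γ, A)` attached to two-group rewriting data. -/
noncomputable def op (h : Rew2 ι' ι α) (A : Type*) [AddCommGroup A] :
    (Additive Γ' →+ A) →+ (Additive Γ →+ A) where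
  toFun := h.opHom
  map_zero' := by
    refine AddMonoidHom.ext fun γ => ?_
    simp [opHom, opFun]
  map_add' φ ψ := by
    refine AddMonoidHom.ext fun γ => ?_
    simp [opHom, opFun, sum_add_distrib]

theorem op_apply (h : Rew2 ι' ι α) (φ : Additive Γ' →+ A) (γ : Γ) :
    h.op A φ (Additive.ofMul γ) = ∑ x, φ (Additive.ofMul (h.kap γ x)) := rfl

/-- The apply formula for an arbitrary rewriting of `γ`. -/
theorem op_apply_of_rewriting (h : Rew2 ι' ι α) (φ : Additive Γ' →+ A) (γ : Γ)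
    (σ : X → X) (κ : X → Γ') (e : ∀ x, α x * ι γ = ι' (κ x) * α (σ x)) :
    h.op A φ (Additive.ofMul γ) = ∑ x, φ (Additive.ofMul (κ x)) := by
  rw [op_apply]
  exact sum_congr rfl fun x _ => by rw [h.kap_eq (e x)]

/-- Naturality of the operator in the coefficient group. -/
theorem op_comp (h : Rew2 ι' ι α) (ψ : A →+ B) (φ : Additive Γ' →+ A) :
    h.op B (ψ.comp φ) = ψ.comp (h.op A φ) := by
  refine AddMonoidHom.ext fun γ => ?_
  simp [op, opHom, opFun]

theorem op_smul {R : Type*} [Semiring R] [Module R A] (h : Rew2 ι' ι α) (r : R)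
    (φ : Additive Γ' →+ A) : h.op A (r • φ) = r • h.op A φ := by
  refine AddMonoidHom.ext fun γ => ?_
  simp [op, opHom, opFun, smul_sum]

/-- The operator as a linear map. -/
noncomputable def opL (h : Rew2 ι' ι α) (R : Type*) [Semiring R] (A : Type*)
    [AddCommGroup A] [Module R A] : (Additive Γ' →+ A) →ₗ[R] (Additive Γ →+ A) where
  toFun := h.op A
  map_add' := map_add _
  map_smul' r φ := h.op_smul r φ

@[simp] theorem opL_apply {R : Type*} [Semiring R] [Module R A] (h : Rew2 ι' ι α)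
    (φ : Additive Γ' →+ A) : h.opL R A φ = h.op A φ := rfl

end op

section cycle

variable [Fintype X] {A : Type*} [AddCommGroup A]

theorem map_kap_pow (h : Rew2 ι' ι α) (φ : Additive Γ' →+ A) (γ : Γ) (k : ℕ) (x : X) :
    φ (Additive.ofMul (h.kap (γ ^ k) x))
      = ∑ i ∈ range k, φ (Additive.ofMul (h.kap γ ((h.perm γ ^ i) x))) := by
  induction k with
  | zero => simp
  | succ k ih =>
    rw [pow_succ, h.kap_mul, ofMul_mul, map_add, ih, sum_range_succ, h.tgt_pow]

/-- A sum over a finite type vanishes if all the sums over (multiples of) the cycles of a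
permutation vanish. -/
theorem sum_eq_zero_of_cycle_sums' {X A : Type*} [Fintype X] [AddCommGroup A]
    (σ : Equiv.Perm X) (f : X → A)
    (h : ∀ x k, 0 < k → (σ ^ k) x = x → ∑ i ∈ range k, f ((σ ^ i) x) = 0) :
    ∑ x, f x = 0 := by
  classical
  refine Finset.sum_cancels_of_partition_cancels (Equiv.Perm.SameCycle.setoid σ) ?_
  intro x _
  set k := Function.minimalPeriod σ x with hk
  have hkpos : 0 < k :=
    Function.minimalPeriod_pos_of_mem_periodicPts (σ.injective.mem_periodicPts x)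
  have hkx : (σ ^ k) x = x := by
    rw [← Equiv.Perm.iterate_eq_pow]
    exact Function.iterate_minimalPeriod
  have hset : (univ.filter fun a => (Equiv.Perm.SameCycle.setoid σ) a x)
      = (range k).image fun i => (σ ^ i) x := by
    ext a
    simp only [mem_filter, mem_univ, true_and, mem_image, mem_range]
    constructor
    · intro ha
      have ha' : Equiv.Perm.SameCycle σ x a := Equiv.Perm.SameCycle.symm ha
      obtain ⟨i, hi⟩ := ha'.exists_nat_pow_eq
      refine ⟨i % k, Nat.mod_lt _ hkpos, ?_⟩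
      rw [← hi, ← Equiv.Perm.iterate_eq_pow, ← Equiv.Perm.iterate_eq_pow]
      exact Function.iterate_mod_minimalPeriod_eq
    · rintro ⟨i, -, rfl⟩
      exact Equiv.Perm.SameCycle.symm ⟨(i : ℤ), by simp⟩
  rw [hset, sum_image]
  · exact h x k hkpos hkx
  · intro i hi j hj hij
    have := Function.iterate_injOn_Iio_minimalPeriod (f := σ) (x := x)
    refine this (by simpa using hi) (by simpa using hj) ?_
    simpa [Equiv.Perm.iterate_eq_pow] using hij

/-- The cycle argument: if `φ` kills the elements of `Γ'` with property `P'`, and `P'` holds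
for every `κ` with `α x * ι (γ ^ k) = ι' κ * α x` (`P γ`, `k > 0`), then `op φ` kills the
elements of `Γ` with property `P`. -/
theorem op_kills (h : Rew2 ι' ι α) (P : Γ → Prop) (P' : Γ' → Prop)
    (hconj : ∀ γ, P γ → ∀ (k : ℕ), 0 < k → ∀ (x : X) (κ : Γ'),
      α x * ι (γ ^ k) = ι' κ * α x → P' κ)
    (φ : Additive Γ' →+ A) (hφ : ∀ κ, P' κ → φ (Additive.ofMul κ) = 0)
    (γ : Γ) (hγ : P γ) : h.op A φ (Additive.ofMul γ) = 0 := by
  rw [op_apply]
  refine sum_eq_zero_of_cycle_sums' (h.perm γ) _ fun x k hk hx => ?_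
  rw [← h.map_kap_pow φ γ k x]
  refine hφ _ (hconj γ hγ k hk x _ ?_)
  have := h.spec (γ ^ k) x
  rwa [h.tgt_pow, hx] at this

end cycle

section change

variable {X' : Type*} {α' : X' → G}

/-- Change of representatives: a family related to a rewriting family by a bijection and left
multiplication by elements of `Γ'` is a rewriting family. -/
theorem of_equiv (h : Rew2 ι' ι α) (e : X' ≃ X) (μ : X' → Γ')
    (hμ : ∀ x', α' x' = ι' (μ x') * α (e x')) : Rew2 ι' ι α' where
  inj := h.inj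
  rw γ x' := by
    obtain ⟨y, κ, hκ⟩ := h.rw γ (e x')
    refine ⟨e.symm y, μ x' * κ * (μ (e.symm y))⁻¹, ?_⟩
    rw [hμ x', hμ (e.symm y), e.apply_symm_apply, mul_assoc, hκ, map_mul, map_mul, map_inv]
    group
  sep x' y' κ hκ := by
    apply e.injective
    refine h.sep (e x') (e y') ((μ x')⁻¹ * κ * μ y') ?_
    have h1 := hκ
    rw [hμ x', hμ y'] at h1
    rw [map_mul, map_mul, map_inv, mul_assoc, mul_assoc, ← h1]
    group

variable [Fintype X] [Fintype X'] {A : Type*} [AddCommGroup A]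

/-- The operator does not depend on the representatives. -/
theorem op_eq_of_equiv (h : Rew2 ι' ι α) (h' : Rew2 ι' ι α') (e : X' ≃ X) (μ : X' → Γ')
    (hμ : ∀ x', α' x' = ι' (μ x') * α (e x')) : h'.op A = h.op A := by
  refine AddMonoidHom.ext fun φ => AddMonoidHom.ext fun γ => ?_
  obtain ⟨γ, rfl⟩ : ∃ γ₀ : Γ, Additive.ofMul γ₀ = γ := ⟨Additive.toMul γ, rfl⟩
  have key : ∀ x', α' x' * ι γ
      = ι' (μ x' * h.kap γ (e x') * (μ (e.symm (h.tgt γ (e x'))))⁻¹)
        * α' (e.symm (h.tgt γ (e x'))) := by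
    intro x'
    rw [hμ x', hμ (e.symm (h.tgt γ (e x'))), e.apply_symm_apply, mul_assoc, h.spec γ (e x'),
      map_mul, map_mul, map_inv]
    group
  rw [h'.op_apply_of_rewriting φ γ _ _ key, h.op_apply]
  simp only [ofMul_mul, ofMul_inv, map_add, map_neg, sum_add_distrib, sum_neg_distrib]
  have h1 : ∑ x', φ (Additive.ofMul (μ (e.symm (h.tgt γ (e x')))))
      = ∑ x', φ (Additive.ofMul (μ x')) := by
    have hb : Function.Bijective fun x' => e.symm (h.tgt γ (e x')) :=
      e.symm.bijective.comp ((h.perm γ).bijective.comp e.bijective)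
    exact Function.Bijective.sum_comp hb (fun y => φ (Additive.ofMul (μ y)))
  have h2 : ∑ x', φ (Additive.ofMul (h.kap γ (e x'))) = ∑ x, φ (Additive.ofMul (h.kap γ x)) :=
    Equiv.sum_comp e (fun x => φ (Additive.ofMul (h.kap γ x)))
  rw [h1, h2]
  abel

end change

section comp

variable {Γ'' Y : Type*} [Group Γ''] {ι'' : Γ'' →* G} {β : Y → G}

/-- The product family satisfies the rewriting condition. -/
theorem comp_rw (h₁ : Rew2 ι' ι α) (h₂ : Rew2 ι ι'' β) (γ : Γ'') (p : X × Y) :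
    α p.1 * β p.2 * ι'' γ
      = ι' (h₁.kap (h₂.kap γ p.2) p.1)
        * (α (h₁.tgt (h₂.kap γ p.2) p.1) * β (h₂.tgt γ p.2)) := by
  rw [mul_assoc, h₂.spec γ p.2, ← mul_assoc, h₁.spec (h₂.kap γ p.2) p.1, mul_assoc]

/-- The product family is rewriting data as soon as it is separated. -/
theorem comp (h₁ : Rew2 ι' ι α) (h₂ : Rew2 ι ι'' β)
    (hsep : ∀ (p p' : X × Y) (κ : Γ'), α p.1 * β p.2 = ι' κ * (α p'.1 * β p'.2) → p = p') :
    Rew2 ι' ι'' (fun p : X × Y => α p.1 * β p.2) where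
  inj := h₁.inj
  rw γ p := ⟨(h₁.tgt (h₂.kap γ p.2) p.1, h₂.tgt γ p.2), h₁.kap (h₂.kap γ p.2) p.1,
    h₁.comp_rw h₂ γ p⟩
  sep := hsep

variable [Fintype X] [Fintype Y] {A : Type*} [AddCommGroup A]

/-- Composition of operators = operator of the product family. -/
theorem op_op (h₁ : Rew2 ι' ι α) (h₂ : Rew2 ι ι'' β)
    (h₁₂ : Rew2 ι' ι'' (fun p : X × Y => α p.1 * β p.2)) (φ : Additive Γ' →+ A) :
    h₂.op A (h₁.op A φ) = h₁₂.op A φ := by
  refine AddMonoidHom.ext fun γ => ?_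
  obtain ⟨γ, rfl⟩ : ∃ γ₀ : Γ'', Additive.ofMul γ₀ = γ := ⟨Additive.toMul γ, rfl⟩
  rw [h₁₂.op_apply_of_rewriting φ γ
      (fun p => (h₁.tgt (h₂.kap γ p.2) p.1, h₂.tgt γ p.2))
      (fun p => h₁.kap (h₂.kap γ p.2) p.1) (fun p => h₁.comp_rw h₂ γ p), h₂.op_apply,
    Fintype.sum_prod_type_right]
  refine sum_congr rfl fun y _ => ?_
  rw [h₁.op_apply]

end comp

section comm

variable {Γ₁ Γ₂ Γ₂' Γ₃ X Y X' Y' : Type*} [Group Γ₁] [Group Γ₂] [Group Γ₂'] [Group Γ₃]
  {ι₁ : Γ₁ →* G} {ι₂ : Γ₂ →* G} {ι₂' : Γ₂' →* G} {ι₃ : Γ₃ →* G}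
  {α : X → G} {β : Y → G} {α' : X' → G} {β' : Y' → G}
  [Fintype X] [Fintype Y] [Fintype X'] [Fintype Y'] {A : Type*} [AddCommGroup A]

/-- **Commutation criterion.**  Two composites `Hom(Γ₁, A) → Hom(Γ₃, A)` (through `Γ₂` resp.
`Γ₂'`) agree if the second product family is separated and the first product family is obtained
from it by a bijection of the index sets and left multiplication by elements of `Γ₁`. -/
theorem op_op_comm (h₁ : Rew2 ι₁ ι₂ α) (h₂ : Rew2 ι₂ ι₃ β)
    (h₁' : Rew2 ι₁ ι₂' α') (h₂' : Rew2 ι₂' ι₃ β')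
    (hsep : ∀ (p p' : X' × Y') (κ : Γ₁),
      α' p.1 * β' p.2 = ι₁ κ * (α' p'.1 * β' p'.2) → p = p')
    (e : X × Y ≃ X' × Y') (μ : X × Y → Γ₁)
    (hμ : ∀ p : X × Y, α p.1 * β p.2 = ι₁ (μ p) * (α' (e p).1 * β' (e p).2))
    (φ : Additive Γ₁ →+ A) :
    h₂.op A (h₁.op A φ) = h₂'.op A (h₁'.op A φ) := by
  have h₁₂' := h₁'.comp h₂' hsep
  have h₁₂ : Rew2 ι₁ ι₃ (fun p : X × Y => α p.1 * β p.2) := h₁₂'.of_equiv e μ hμ
  rw [h₁.op_op h₂ h₁₂, h₁'.op_op h₂' h₁₂', h₁₂'.op_eq_of_equiv h₁₂ e μ hμ]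

end comm

end Rew2

end Fermat.Agent.H63.SS2
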