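import Fermat.Agent.H63.SS2.GlueCore
import Fermat.Agent.H79.CohFaithful
import Fermat.Agent.H50.EsC.Eigen
import Fermat.Agent.H31.PeriodBasic
import Fermat.Agent.H63.S21A

/-!
# P-SS2 (S36), J-side: the eigencharacter of a newform is faithful on the new core of the
lattice (helper63)

`faithful_lamCore` : if a Hecke polynomial `P` kills `lamCore M`, then `chig (P(T)) = 0`, for the
eigencharacter `chig` of a newform `g` of level `M`.

Proof.  The period class `v = per(g, g)` is new (J4), parabolic and an eigenclass.  By the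
delta trick of helper79, `per(P g, P g)(γ) = v(δ)` with `(P ψ)(γ) = ψ(δ)` for all integral
parabolic classes `ψ`.  If `v(δ) ≠ 0`, an integral coordinate `c ∘ v` of `v` (helper70) is a new
integral parabolic class not vanishing at `δ`: contradiction.  Hence `per(P g, P g) = 0`,
`P g = 0` (Eichler–Shimura, injectivity), and `P g = chig(P(T)) g` with `g ≠ 0`.
-/

set_option autoImplicit false
set_option linter.style.haveILetI false
set_option linter.unusedSectionVars false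
set_option linter.unusedVariables false

noncomputable section

namespace Fermat.Agent.H63.SS2

open ModularCurve AlgebraicCurve CongruenceSubgroup Fermat.Agent.H14 Fermat.Agent.H37
open ModularCurve.Period Fermat.Agent.H79
open scoped MatrixGroups

/-- `per(g, g) = 2 per(g)`. -/
theorem periodHomPair_diag (N : ℕ) [NeZero N] (g : CuspForm (Gamma0 N) 2) :
    periodHomPair N (g, g) = periodMap N g + periodMap N g := by
  refine AddMonoidHom.ext fun γ' => ?_
  obtain ⟨γ, rfl⟩ : ∃ γ : Gamma0 N, Additive.ofMul γ = γ' := ⟨Additive.toMul γ', rfl⟩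
  rw [Fermat.Agent.H31.periodHomPair_apply
    (fun f => Fermat.Agent.H63.exists_hasEquivariantPrimitive N f) g g γ,
    AddMonoidHom.add_apply]
  ring

/-- The period class of a newform is new (J4). -/
theorem isNewH_period (hNew : NewClassStatement) {M : ℕ} [NeZero M]
    (g : CuspForm (Gamma0 M) 2) (hg : g.IsNewform) : IsNewH M (periodHomPair M (g, g)) := by
  intro L q _ _ h hq hqL
  subst h
  have h1 := hNew L q hq hqL g hg
  rw [castH_rfl, periodHomPair_diag, map_add, map_add, h1.1, h1.2, add_zero]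
  exact ⟨rfl, rfl⟩

/-- **Relative rational structure**: a new complex parabolic class not vanishing at `δ` has an
integral coordinate in the new core of the lattice not vanishing at `δ`. -/
theorem exists_lamCore_ne_zero {M : ℕ} [NeZero M] (v : Additive ↥(Gamma0 M) →+ ℂ)
    (hv : IsParabolicHom (Gamma0 M) v) (hnew : IsNewH M v) (δ : Gamma0 M)
    (hδ : v (Additive.ofMul δ) ≠ 0) :
    ∃ ψ : S31Lat M, ψ ∈ lamCore M ∧
      (ψ : Additive ↥(Gamma0 M) →+ ℤ) (Additive.ofMul δ) ≠ 0 := by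
  have : Group.FG SL(2, ℤ) := Fermat.Agent.H6.sl2Z_group_fg
  have : Group.FG (Gamma0 M) := Subgroup.fg_of_index_ne_zero (Gamma0 M)
  obtain ⟨c, hc⟩ := Fermat.Agent.H70.exists_int_coordinate_of_ne_zero v δ hδ
  have hpar : IsParabolicHom (Gamma0 M) (c.comp v.rangeRestrict) := by
    intro γ hγ
    have h0 : v.rangeRestrict (Additive.ofMul γ) = 0 := by
      apply Subtype.ext
      simpa using hv γ hγ
    simp [h0]
  have hsub : v.range.subtype.comp v.rangeRestrict = v := by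
    refine AddMonoidHom.ext fun γ => ?_
    rfl
  have hnew0 : IsNewH M v.rangeRestrict :=
    IsNewH.of_comp v.range.subtype Subtype.val_injective (by rw [hsub]; exact hnew)
  exact ⟨⟨c.comp v.rangeRestrict, hpar⟩, hnew0.comp c, hc⟩

/-- A Hecke polynomial acts on a normalised eigenform through its eigencharacter. -/
theorem s31Op_eigen {M : ℕ} [NeZero M] (S : Finset ℕ) (g : CuspForm (Gamma0 M) 2)
    (hg : g.IsNormalizedEigenform)
    (chig : CuspForm.heckeAlgebra M 2 (↑S : Set ℕ) →+* ℂ)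
    (hchig : ∀ (ℓ : ℕ) (hℓ : ℓ.Prime) (hℓM : ¬ ℓ ∣ M) (hℓS : ℓ ∉ (↑S : Set ℕ)),
      chig (CuspForm.heckeAlgebra.T hℓ hℓM hℓS) = ModularFormClass.qCoeff g ℓ)
    (Q : HeckeAlg) :
    s31Op M S Q g = chig (MvPolynomial.aeval (s31HeckeVal M S) Q) • g := by
  induction Q using MvPolynomial.induction_on with
  | C n =>
    rw [s31Op_C, MvPolynomial.aeval_C]
    have h1 : chig (algebraMap ℤ (CuspForm.heckeAlgebra M 2 (↑S : Set ℕ)) n) = (n : ℂ) := by
      rw [eq_intCast (algebraMap ℤ (CuspForm.heckeAlgebra M 2 (↑S : Set ℕ))) n, map_intCast]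
    rw [h1, Int.cast_smul_eq_zsmul]
  | add P Q hP hQ =>
    rw [s31Op_add, hP, hQ, map_add, map_add, add_smul]
  | mul_X P ℓ hP =>
    by_cases hgood : ¬ (ℓ : ℕ) ∣ M ∧ (ℓ : ℕ) ∉ (↑S : Set ℕ)
    · obtain ⟨hℓN, hℓS⟩ := hgood
      rw [s31Op_mul_X_good M S P ℓ hℓN hℓS,
        Fermat.Agent.H50.heckeTLin_eq_qCoeff_smul g hg ℓ.2 hℓN, map_smul, hP, map_mul,
        MvPolynomial.aeval_X, map_mul,
        show s31HeckeVal M S ℓ = CuspForm.heckeAlgebra.T ℓ.2 hℓN hℓS from
          s31HeckeVal_of_good M S ℓ.2 hℓN hℓS,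
        hchig ℓ ℓ.2 hℓN hℓS, smul_smul, mul_comm]
    · rw [s31Op_mul_X_bad M S P ℓ hgood, map_mul, MvPolynomial.aeval_X]
      have h0 : s31HeckeVal M S ℓ = 0 := by
        unfold s31HeckeVal
        rw [dif_neg hgood]
      rw [h0, mul_zero, map_zero, zero_smul]

/-- **Faithfulness on the new core** (J4). -/
theorem faithful_lamCore (hNew : NewClassStatement) {M : ℕ} [NeZero M] (S : Finset ℕ)
    (g : CuspForm (Gamma0 M) 2) (hg : g.IsNewform)
    (chig : CuspForm.heckeAlgebra M 2 (↑S : Set ℕ) →+* ℂ)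
    (hchig : ∀ (ℓ : ℕ) (hℓ : ℓ.Prime) (hℓM : ¬ ℓ ∣ M) (hℓS : ℓ ∉ (↑S : Set ℕ)),
      chig (CuspForm.heckeAlgebra.T hℓ hℓM hℓS) = ModularFormClass.qCoeff g ℓ)
    (P : MvPolynomial Nat.Primes ℤ) (hP : ∀ ψ ∈ lamCore M, s31LatEval M S P ψ = 0) :
    chig (MvPolynomial.aeval (s31HeckeVal M S) P) = 0 := by
  have hgood : ∀ (ℓ : ℕ) (hℓ : ℓ.Prime) (hℓN : ¬ ℓ ∣ M), ℓ ∉ (↑S : Set ℕ) → ∀ ψ : S31Lat M,
      ((s31LatEval M S (heckeGen ⟨ℓ, hℓ⟩) ψ : S31Lat M) : Additive ↥(Gamma0 M) →+ ℤ)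
        = Fermat.Agent.H21.cohT M ℓ hℓ hℓN ℤ (ψ : Additive ↥(Gamma0 M) →+ ℤ) := by
    intro ℓ hℓ hℓN hℓS ψ
    rw [s31LatEval_heckeGen]
    exact s31LatOp_of_good M S hℓ hℓN hℓS ψ
  have hbad : ∀ (ℓ : ℕ) (hℓ : ℓ.Prime), ¬ (¬ ℓ ∣ M ∧ ℓ ∉ (↑S : Set ℕ)) →
      s31LatEval M S (heckeGen ⟨ℓ, hℓ⟩) = 0 := by
    intro ℓ hℓ h
    rw [s31LatEval_heckeGen]
    exact s31LatOp_of_not_good M S hℓ h
  have hv := Fermat.Agent.H97.periodHomPair_mem_parabolicHoms M (g, g)
  have hnew := isNewH_period hNew g hg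
  have hzero : periodHomPair M (s31Op M S P g, s31Op M S P g) = 0 := by
    refine AddMonoidHom.ext fun γ' => ?_
    obtain ⟨γ, rfl⟩ : ∃ γ : Gamma0 M, Additive.ofMul γ = γ' := ⟨Additive.toMul γ', rfl⟩
    obtain ⟨δ, h1, h2⟩ := exists_delta M S (s31LatEval M S) hgood hbad P γ
    rw [h2 g g, AddMonoidHom.zero_apply]
    by_contra hne
    obtain ⟨ψ, hψ, hψδ⟩ := exists_lamCore_ne_zero (periodHomPair M (g, g)) hv hnew δ hne
    have h3 := h1 ψ
    rw [hP ψ hψ] at h3
    exact hψδ h3.symm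
  have hinj := (Fermat.Agent.H21.EsC.eichlerShimura M).1 (hzero.trans (map_zero _).symm)
  have h0 : s31Op M S P g = 0 := congrArg Prod.fst hinj
  rw [s31Op_eigen S g hg.1 chig hchig P] at h0
  rcases smul_eq_zero.mp h0 with h | h
  · exact h
  · exact absurd h hg.ne_zero

end Fermat.Agent.H63.SS2

end
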