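import Fermat.Agent.H63.SS2.GlueKum
import Fermat.Agent.H63.SS2.GlueFaith
import Fermat.Agent.H81.ValFrob

/-!
# P-SS2 (S36), J-side: the Carayol lattice from the J-side rows and the geometric contract
(helper63)

`carayolLattice_of_jside` : `Fermat.Agent.H52.CarayolLatticeStatement` (hence the frozen S36 by
`Fermat.Agent.H52.s36_of_lattice`) from

* the group-side rows J2A, J2B (`CorHeckeAStatement`, `CorHeckeBStatement`),
* the period row J4 (`NewClassStatement`),
* the Kummer rows J8a, J8b (`KummerCharStatement`, `KummerNewStatement`),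
* the bridge J9 and the level change J10 (`BridgeStatement`, `LevelChangeStatement`),
* the geometric contract `(KC-FF)` of helper11 at the levels `M' q²`, `q ∤ M'`, `4 ∣ M'`
  (`q` odd) resp. `9 ∣ M'` (`q = 2`).

The lattice is the `χ`-eigenlattice of the Tate module of the new core `nCore M S` of
`J₀(M)(ℚ̄)` (`relLattice`), with `lamCore M` as the sublattice of `Hom_par(Γ₀(M), ℤ)`.
-/

set_option autoImplicit false
set_option linter.style.haveILetI false
set_option linter.unusedSectionVars false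
set_option linter.unusedVariables false

noncomputable section

namespace Fermat.Agent.H63.SS2

open ModularCurve AlgebraicCurve CongruenceSubgroup Fermat.Agent.H14 Fermat.Agent.H37
open ModularCurve.Period

/-- **The Carayol lattice from the J-side rows and the geometric contract `(KC-FF)`.** -/
theorem carayolLattice_of_jside
    (hCA : CorHeckeAStatement) (hCB : CorHeckeBStatement) (hNew : NewClassStatement)
    (hKC : ∀ (N : ℕ) [NeZero N], KummerCharStatement N) (hKN : KummerNewStatement)
    (hBr : BridgeStatement) (hLC : LevelChangeStatement)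
    (hFF : ∀ (M' q : ℕ) [NeZero M'] [NeZero q], q.Prime → ¬ q ∣ M' → (q ≠ 2 → 4 ∣ M') →
      (q = 2 → 9 ∣ M') → Fermat.Agent.H11.SS2.NewInvariantFFStatement (M' * q) q) :
    Fermat.Agent.H52.CarayolLatticeStatement := by
  intro M _ g hg lam _ S O' _ _ _ _ _ _ hlamO' hlam2 chig hchig iota hlamS hMS hres
  have hlam : lam.Prime := Fact.out
  have hfaith : ∀ P : MvPolynomial Nat.Primes ℤ, (∀ ψ ∈ lamCore M, s31LatEval M S P ψ = 0) →
      (iota.comp chig.rangeRestrict) (MvPolynomial.aeval (s31HeckeVal M S) P) = 0 := by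
    intro P hP
    have h := faithful_lamCore hNew S g hg chig hchig P hP
    have h0 : chig.rangeRestrict (MvPolynomial.aeval (s31HeckeVal M S) P) = 0 :=
      Subtype.ext h
    rw [RingHom.comp_apply, h0, map_zero]
  obtain ⟨Λ, i1, i2, i3, i4, i5, ρ, hcont, hrel, hinv⟩ :=
    relLattice lam M S hlamS O' hlamO' (iota.comp chig.rangeRestrict) (nCore M S)
      (fun σ x hx => smul_mem_nCore M S σ hx) (fun ℓ x hx => esJOp_mem_nCore M S ℓ hx)
      (lamCore M) (fun ℓ ψ hψ => s31LatOp_mem_lamCore M hCA hCB S ℓ hψ)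
      (lamCore_saturated M) hfaith (kummerCore M S hCA hCB (hKC M) hKN)
  refine ⟨Λ, i1, i2, i3, i4, i5, ρ, hcont, hrel, ?_⟩
  intro q hq hqlam hq2
  haveI : NeZero q := ⟨hq.ne_zero⟩
  have hM0 : M ≠ 0 := NeZero.ne M
  -- `M = M' q²`, `q ∤ M'`
  have hdvd : q ^ 2 ∣ M := by
    have h := Nat.ordProj_dvd M q
    rwa [hq2] at h
  obtain ⟨M', hM'⟩ := hdvd
  have hqM' : ¬ q ∣ M' := by
    intro h
    obtain ⟨M'', hM''⟩ := h
    have h3 : q ^ (M.factorization q + 1) ∣ M := by
      rw [hq2]
      exact ⟨M'', by rw [hM', hM'']; ring⟩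
    exact Nat.pow_succ_factorization_not_dvd hM0 hq h3
  haveI : NeZero M' := ⟨by
    rintro rfl
    exact hM0 (by rw [hM', mul_zero])⟩
  have hM : M = M' * q * q := by rw [hM']; ring
  obtain ⟨P, hP⟩ := Fermat.Agent.H81.exists_valuationSubring_liesOverPrime
    (K := AlgebraicClosure ℚ) q hq
  refine ⟨P, hP, ?_⟩
  obtain ⟨c, hc, hkc⟩ := kcj_of_rows hBr hLC hFF M' q hq hqM' P hP
  refine hinv (↑(P.inertiaSubgroupIn ℚ)) c hc.ne' ?_
  rintro x hx ⟨k, hk⟩ hfix
  have h1 := hkc (lam ^ k) (pow_pos hlam.pos k) (not_dvd_prime_pow hlam hq hqlam k)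
    (castJ hM x) (by rw [← map_nsmul, hk, map_zero])
    (isNewJ_of_mem_nCore M S hx (M' * q) q hM hq (Dvd.intro_left M' rfl))
    (fun σ hσ => by rw [← castJ_smul, hfix σ hσ])
  apply castJ_injective hM
  rw [map_nsmul, h1, map_zero]

end Fermat.Agent.H63.SS2

end
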