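import Fermat.Agent.H63.SS2.Interfaces
import Fermat.Agent.H37.ESAdic.S30Final
import Fermat.Agent.H52.ESTateFull
import Fermat.Agent.H22.ES.KLFinal

/-!
# P-SS2 (S36), J-side: the relative Eichler–Shimura lattice (helper63)

Twin of `Fermat.Agent.H37.eichlerShimuraLattice_of_jside` for a Galois- and Hecke-stable
subgroup `𝒩 ≤ J₀(M)(ℚ̄)` and a Hecke-stable saturated sublattice `Λ' ≤ Hom_par(Γ₀(M), ℤ)` on
which the character `χ` is faithful and whose Kummer images lie in `𝒩`: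

`relLattice` : a nonzero finite free `𝒪'`-module `Λ` with an adically continuous action of
`G_ℚ` satisfying the Eichler–Shimura relation for `χ` and such that, for every subset `I` of
`G_ℚ`: if the `I`-invariants of the `p`-power torsion of `𝒩` are killed by some `c ≠ 0`, then
`Λ` has no nonzero `I`-invariant vector.

UNCONDITIONAL (uses the landed key lemma `Fermat.Agent.H22.KL.keyLemmaAll`, the Tate machine
`Fermat.Agent.H52.tateMachineFull` and `Fermat.Agent.H31.Tate.kummerOccurs`).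
-/

set_option autoImplicit false
set_option linter.style.haveILetI false
set_option linter.unusedSectionVars false
set_option linter.unusedVariables false

noncomputable section

namespace Fermat.Agent.H63.SS2

open ModularCurve AlgebraicCurve CongruenceSubgroup Fermat.Agent.H14 Fermat.Agent.H37
open scoped TensorProduct

section SubAction

variable {M : ℕ} (𝒩 : AddSubgroup (JZero M))
  (h𝒩G : ∀ (σ : AlgebraicClosure ℚ ≃ₐ[ℚ] AlgebraicClosure ℚ) (x : JZero M), x ∈ 𝒩 → σ • x ∈ 𝒩)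

/-- The Galois action on a Galois-stable subgroup of `J₀(M)(ℚ̄)`. -/
def subAction : DistribMulAction (AlgebraicClosure ℚ ≃ₐ[ℚ] AlgebraicClosure ℚ) ↥𝒩 where
  smul σ x := ⟨σ • (x : JZero M), h𝒩G σ x x.2⟩
  one_smul x := Subtype.ext (one_smul _ (x : JZero M))
  mul_smul σ τ x := Subtype.ext (mul_smul σ τ (x : JZero M))
  smul_zero σ := Subtype.ext (smul_zero (A := JZero M) σ)
  smul_add σ x y := Subtype.ext (smul_add σ (x : JZero M) (y : JZero M))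

end SubAction

/-- **The relative Eichler–Shimura lattice.** -/
theorem relLattice (p : ℕ) [Fact p.Prime] (M : ℕ) [NeZero M] (S : Finset ℕ) (hpS : p ∈ S)
    (𝒪' : Type) [CommRing 𝒪'] [IsDomain 𝒪'] [IsDiscreteValuationRing 𝒪']
    [IsAdicComplete (IsLocalRing.maximalIdeal 𝒪') 𝒪'] [Finite (IsLocalRing.ResidueField 𝒪')]
    [CharZero 𝒪'] (hp𝒪' : (p : 𝒪') ∈ IsLocalRing.maximalIdeal 𝒪')
    (χ : CuspForm.heckeAlgebra M 2 (↑S : Set ℕ) →+* 𝒪')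
    (𝒩 : AddSubgroup (JZero M))
    (h𝒩G : ∀ (σ : AlgebraicClosure ℚ ≃ₐ[ℚ] AlgebraicClosure ℚ) (x : JZero M),
      x ∈ 𝒩 → σ • x ∈ 𝒩)
    (h𝒩T : ∀ (ℓ : Nat.Primes) (x : JZero M), x ∈ 𝒩 → esJOp M S ℓ x ∈ 𝒩)
    (Λ' : Submodule ℤ (S31Lat M))
    (hΛT : ∀ (ℓ : Nat.Primes) (ψ : S31Lat M), ψ ∈ Λ' → s31LatOp M S ℓ ψ ∈ Λ')
    (hΛsat : ∀ (n : ℕ) (ψ : S31Lat M), n ≠ 0 → n • ψ ∈ Λ' → ψ ∈ Λ')
    (hfaith : ∀ P : MvPolynomial Nat.Primes ℤ, (∀ ψ ∈ Λ', s31LatEval M S P ψ = 0) →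
      χ (MvPolynomial.aeval (s31HeckeVal M S) P) = 0)
    (hkum : ∀ m : ℕ, 0 < m → ∃ κ : S31Lat M →+ JZero M,
      (∀ ψ : S31Lat M, m • κ ψ = 0) ∧
      (∀ ψ : S31Lat M, κ ψ = 0 → ∃ ψ' : S31Lat M, ψ = m • ψ') ∧
      (∀ (ℓ : ℕ) (hℓ : ℓ.Prime) (hℓN : ¬ ℓ ∣ M) (ψ ψ' : S31Lat M),
        (ψ' : Additive ↥(Gamma0 M) →+ ℤ)
            = Fermat.Agent.H21.cohT M ℓ hℓ hℓN ℤ (ψ : Additive ↥(Gamma0 M) →+ ℤ) →
          κ ψ' = heckeOperatorBar M ⟨ℓ, hℓ⟩ (κ ψ)) ∧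
      ∀ ψ ∈ Λ', κ ψ ∈ 𝒩) :
    ∃ (Λ : Type) (_ : AddCommGroup Λ) (_ : Module 𝒪' Λ) (_ : Module.Free 𝒪' Λ)
      (_ : Module.Finite 𝒪' Λ) (_ : Nontrivial Λ)
      (ρ : (AlgebraicClosure ℚ ≃ₐ[ℚ] AlgebraicClosure ℚ) →* Module.End 𝒪' Λ),
      GaloisActionIsAdicContinuous 𝒪' ρ ∧
      (∀ (ℓ : ℕ) (hℓ : ℓ.Prime) (hℓN : ¬ ℓ ∣ M) (hℓS : ℓ ∉ (↑S : Set ℕ)),
        ∀ A : ValuationSubring (AlgebraicClosure ℚ), A.LiesOverPrime ℓ →
          ∀ σ : AlgebraicClosure ℚ ≃ₐ[ℚ] AlgebraicClosure ℚ, A.IsFrobeniusAt σ ℓ →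
            ρ σ * ρ σ - χ (CuspForm.heckeAlgebra.T hℓ hℓN hℓS) • ρ σ
              + (ℓ : 𝒪') • (1 : Module.End 𝒪' Λ) = 0) ∧
      (∀ (I : Set (AlgebraicClosure ℚ ≃ₐ[ℚ] AlgebraicClosure ℚ)) (c : ℕ), c ≠ 0 →
        (∀ x : JZero M, x ∈ 𝒩 → (∃ k : ℕ, p ^ k • x = 0) → (∀ τ ∈ I, τ • x = x) →
          c • x = 0) →
        ∀ v : Λ, (∀ τ ∈ I, ρ τ v = v) → v = 0) := by
  classical
  have hpp : p.Prime := Fact.out
  have hpk : ∀ k : ℕ, 0 < p ^ k := fun k => pow_pos hpp.pos k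
  have hKL := Fermat.Agent.H22.KL.keyLemmaAll
  have hES := Fermat.Agent.H28.eichlerShimuraRel_of_kl hKL M
  letI : DistribMulAction (AlgebraicClosure ℚ ≃ₐ[ℚ] AlgebraicClosure ℚ) ↥𝒩 := subAction 𝒩 h𝒩G
  have hsmul_coe : ∀ (σ : AlgebraicClosure ℚ ≃ₐ[ℚ] AlgebraicClosure ℚ) (x : ↥𝒩),
      ((σ • x : ↥𝒩) : JZero M) = σ • (x : JZero M) := fun _ _ => rfl
  -- the operators on `𝒩`
  let T : Nat.Primes → (↥𝒩 →+ ↥𝒩) := fun ℓ =>
    ((esJOp M S ℓ).comp 𝒩.subtype).codRestrict 𝒩 (fun x => h𝒩T ℓ x x.2)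
  have hT_coe : ∀ (ℓ : Nat.Primes) (x : ↥𝒩), ((T ℓ x : ↥𝒩) : JZero M) = esJOp M S ℓ x :=
    fun _ _ => rfl
  -- commutation with the Galois action
  have hcomm : ∀ (i : Nat.Primes) (g : AlgebraicClosure ℚ ≃ₐ[ℚ] AlgebraicClosure ℚ) (x : ↥𝒩),
      T i (g • x) = g • T i x := by
    rintro ⟨ℓ, hℓ⟩ g x
    refine Subtype.ext ?_
    rw [hT_coe, hsmul_coe, hsmul_coe, hT_coe]
    by_cases h : ¬ ℓ ∣ M ∧ ℓ ∉ (↑S : Set ℕ)
    · rw [esJOp_of_good M S hℓ h.1 h.2, esJOp_of_good M S hℓ h.1 h.2]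
      exact Fermat.Agent.H49.heckeOperatorBar_galois M ⟨ℓ, hℓ⟩ g (x : JZero M)
    · rw [esJOp_of_not_good M S hℓ h, AddMonoidHom.zero_apply, AddMonoidHom.zero_apply]
      exact (smul_zero (A := JZero M) g).symm
  -- finiteness of the torsion
  have hfin0 : ∀ k : ℕ, {x : JZero M | p ^ k • x = 0}.Finite := by
    intro k
    have hF := Fermat.Agent.H23.EsA.finite_jTors M (hpk k)
    have hF' : (↑(Pic0.torsion (AlgebraicClosure ℚ) (modularFunctionFieldBar M) (p ^ k)) :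
        Set (JZero M)).Finite := Set.finite_coe_iff.mp hF
    refine hF'.subset ?_
    intro x hx
    show x ∈ Pic0.torsion (AlgebraicClosure ℚ) (modularFunctionFieldBar M) (p ^ k)
    rw [Pic0.mem_torsion, natCast_zsmul]
    exact hx
  have hcoe_nsmul : ∀ (n : ℕ) (x : ↥𝒩), n • x = 0 → n • (x : JZero M) = 0 := by
    intro n x h
    rw [← AddSubgroup.coe_nsmul, h, AddSubgroup.coe_zero]
  have hfin : ∀ k : ℕ, Finite {x : ↥𝒩 // p ^ k • x = 0} := by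
    intro k
    have hF : Finite {x : JZero M // p ^ k • x = 0} := (hfin0 k).to_subtype
    refine Finite.of_injective
      (fun x : {x : ↥𝒩 // p ^ k • x = 0} =>
        (⟨((x : ↥𝒩) : JZero M), hcoe_nsmul _ _ x.2⟩ : {x : JZero M // p ^ k • x = 0})) ?_
    intro x y h
    have h1 : ((x : ↥𝒩) : JZero M) = ((y : ↥𝒩) : JZero M) :=
      congrArg (fun z : {x : JZero M // p ^ k • x = 0} => (z : JZero M)) h
    exact Subtype.ext (Subtype.ext h1)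
  -- the lattice `Λ'` with its Hecke action
  let t : Nat.Primes → Module.End ℤ ↥Λ' := fun ℓ => (s31LatOp M S ℓ).restrict (hΛT ℓ)
  have ht_coe : ∀ (ℓ : Nat.Primes) (ψ : ↥Λ'), ((t ℓ ψ : ↥Λ') : S31Lat M)
      = s31LatOp M S ℓ (ψ : S31Lat M) := fun _ _ => rfl
  have htcomm : ∀ i j, t i * t j = t j * t i := by
    intro i j
    refine LinearMap.ext fun ψ => Subtype.ext ?_
    rw [Module.End.mul_apply, Module.End.mul_apply, ht_coe, ht_coe, ht_coe, ht_coe]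
    have := congrArg (fun f : Module.End ℤ (S31Lat M) => f (ψ : S31Lat M)) (s31LatOp_comm M S i j)
    simpa only [Module.End.mul_apply] using this
  let ev : MvPolynomial Nat.Primes ℤ →+* Module.End ℤ ↥Λ' := s31Eval t htcomm
  have hev_coe : ∀ (P : MvPolynomial Nat.Primes ℤ) (ψ : ↥Λ'),
      ((ev P ψ : ↥Λ') : S31Lat M) = s31LatEval M S P (ψ : S31Lat M) := by
    intro P ψ
    exact s31Eval_intertwine t htcomm (s31LatOp M S) (s31LatOp_comm M S)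
      (Λ'.subtype.toAddMonoidHom) (fun i x => ht_coe i x) P ψ
  have hevX : ∀ ℓ : Nat.Primes, ev (MvPolynomial.X ℓ) = t ℓ := fun ℓ => s31Eval_X t htcomm ℓ
  -- faithfulness
  have hfaith' : ∀ P : MvPolynomial Nat.Primes ℤ, ev P = 0 →
      MvPolynomial.aeval (fun ℓ => χ (s31HeckeVal M S ℓ)) P = 0 := by
    intro P hP
    have h1 : χ (MvPolynomial.aeval (s31HeckeVal M S) P) = 0 := by
      refine hfaith P (fun ψ hψ => ?_)
      have := hev_coe P ⟨ψ, hψ⟩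
      rw [hP] at this
      exact this.symm
    have h2 : MvPolynomial.aeval (fun ℓ => χ (s31HeckeVal M S ℓ)) =
        (χ.toIntAlgHom).comp (MvPolynomial.aeval (s31HeckeVal M S)) :=
      (MvPolynomial.comp_aeval (s31HeckeVal M S) χ.toIntAlgHom).symm
    rw [h2, AlgHom.comp_apply]
    exact h1
  -- the Kummer maps
  have hkum' : ∀ k : ℕ, ∃ κ : ↥Λ' →+ ↥𝒩,
      (∀ ψ : ↥Λ', p ^ (k + 1) • κ ψ = 0) ∧
      (∀ ψ : ↥Λ', κ ψ = 0 → ∃ ψ' : ↥Λ', ψ = p ^ (k + 1) • ψ') ∧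
      ∀ (i : Nat.Primes) (ψ : ↥Λ'), κ (ev (MvPolynomial.X i) ψ) = T i (κ ψ) := by
    intro k
    obtain ⟨κ, hκ1, hκ2, hκ3, hκ4⟩ := hkum (p ^ (k + 1)) (hpk (k + 1))
    let κ' : ↥Λ' →+ ↥𝒩 :=
      (κ.comp Λ'.subtype.toAddMonoidHom).codRestrict 𝒩 (fun ψ => hκ4 ψ ψ.2)
    have hκ'_coe : ∀ ψ : ↥Λ', ((κ' ψ : ↥𝒩) : JZero M) = κ (ψ : S31Lat M) := fun _ => rfl
    refine ⟨κ', ?_, ?_, ?_⟩
    · intro ψ
      refine Subtype.ext ?_
      rw [AddSubgroup.coe_nsmul, hκ'_coe, hκ1, AddSubgroup.coe_zero]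
    · intro ψ hψ
      have h0 : κ (ψ : S31Lat M) = 0 := by
        rw [← hκ'_coe, hψ, AddSubgroup.coe_zero]
      obtain ⟨ψ', hψ'⟩ := hκ2 _ h0
      have hmem : ψ' ∈ Λ' := by
        refine hΛsat (p ^ (k + 1)) ψ' (hpk (k + 1)).ne' ?_
        rw [← hψ']
        exact ψ.2
      exact ⟨⟨ψ', hmem⟩, Subtype.ext hψ'⟩
    · rintro ⟨ℓ, hℓ⟩ ψ
      refine Subtype.ext ?_
      rw [hκ'_coe, hT_coe, hκ'_coe, hevX, ht_coe]
      by_cases h : ¬ ℓ ∣ M ∧ ℓ ∉ (↑S : Set ℕ)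
      · rw [esJOp_of_good M S hℓ h.1 h.2]
        exact hκ3 ℓ hℓ h.1 _ _ (s31LatOp_of_good M S hℓ h.1 h.2 _)
      · rw [esJOp_of_not_good M S hℓ h, s31LatOp_of_not_good M S hℓ h,
          AddMonoidHom.zero_apply, LinearMap.zero_apply, map_zero]
  -- occurrence and the Tate machine
  have hocc := Fermat.Agent.H31.Tate.kummerOccurs p ↥Λ' ↥𝒩 Nat.Primes T ev 𝒪' hp𝒪'
    (fun ℓ => χ (s31HeckeVal M S ℓ)) hfaith' hkum'
  obtain ⟨Λ, i1, i2, i3, i4, i5, ρ, h1, h2, h3, -, h5, -, -⟩ :=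
    Fermat.Agent.H52.tateMachineFull p (AlgebraicClosure ℚ ≃ₐ[ℚ] AlgebraicClosure ℚ)
      ↥𝒩 Nat.Primes T hcomm hfin 𝒪' hp𝒪' (fun ℓ => χ (s31HeckeVal M S ℓ)) hocc
  refine ⟨Λ, i1, i2, i3, i4, i5, ρ, ?_, ?_, ?_⟩
  · -- adic continuity
    intro n
    haveI := Fermat.Agent.H23.EsA.finite_jTors M (hpk n)
    obtain ⟨L, hL, h⟩ := Fermat.Agent.H53.jZero_torsion_finiteLevel' M (p ^ n)
    refine ⟨L, hL, fun σ hσ v => h1 n σ (fun x hx => ?_) v⟩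
    refine Subtype.ext ?_
    rw [hsmul_coe]
    exact h σ hσ (x : JZero M) (hcoe_nsmul _ _ hx)
  · -- the Eichler–Shimura relation
    intro ℓ hℓ hℓN hℓS A hA σ hσ
    have hℓp : ℓ ≠ p := fun h => hℓS (h ▸ Finset.mem_coe.mpr hpS)
    have := h3 σ ⟨ℓ, hℓ⟩ ℓ (fun x hx => by
      obtain ⟨k, hk⟩ := hx
      refine Subtype.ext ?_
      show σ • σ • (x : JZero M) - esJOp M S ⟨ℓ, hℓ⟩ (σ • (x : JZero M)) + ℓ • (x : JZero M) = 0
      rw [esJOp_of_good M S hℓ hℓN hℓS]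
      exact hES ℓ hℓ hℓN (p ^ k) (hpk k) (not_dvd_prime_pow hpp hℓ hℓp k) A hA σ hσ
        (x : JZero M) (hcoe_nsmul _ _ hk))
    rw [s31HeckeVal_of_good M S hℓ hℓN hℓS] at this
    exact this
  · -- no invariants
    intro I c hc hI v hv
    refine h5 I c hc (fun x hx hxI => ?_) v hv
    obtain ⟨k, hk⟩ := hx
    refine Subtype.ext ?_
    rw [AddSubgroup.coe_nsmul, AddSubgroup.coe_zero]
    refine hI (x : JZero M) x.2 ⟨k, hcoe_nsmul _ _ hk⟩ (fun τ hτ => ?_)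
    have := congrArg (fun y : ↥𝒩 => (y : JZero M)) (hxI τ hτ)
    exact this

end Fermat.Agent.H63.SS2

end
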