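import Fermat.Agent.H63.SS2.GlueAbs

/-!
# P-SS2 (S36), J-side: the new core of `J₀(M)` and of the parabolic lattice (helper63)

* `castJ`, `castH` : transport along an equality of levels `M = L q`;
* `IsNewJ M x` : `x ∈ J₀(M)(ℚ̄)` lies in `newPart L q` for every factorisation `M = L q` with
  `q` prime, `q ∣ L`;
* `IsNewH M ψ` : `ψ ∈ Hom(Γ₀(M), A)` is killed by `corA`, `corB` for every such factorisation;
* `wordJ`, `nCore M S` : the largest subgroup of new classes stable under the Hecke operators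
  `esJOp`;
* `lamCore M` : the sublattice of new classes of `Hom_par(Γ₀(M), ℤ)`;
* stability under Galois and Hecke, saturation.
-/

set_option autoImplicit false
set_option linter.style.haveILetI false
set_option linter.unusedSectionVars false
set_option linter.unusedVariables false

noncomputable section

namespace Fermat.Agent.H63.SS2

open ModularCurve AlgebraicCurve CongruenceSubgroup Fermat.Agent.H14 Fermat.Agent.H37
open ModularCurve.Period

/-! ## Transport along an equality of levels -/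

section Casts

/-- Transport of divisor classes along an equality of levels. -/
def castJ {M M' : ℕ} (h : M = M') : JZero M →+ JZero M' := by
  subst h
  exact AddMonoidHom.id _

@[simp] theorem castJ_rfl {M : ℕ} (x : JZero M) : castJ (rfl : M = M) x = x := rfl

theorem castJ_smul {M M' : ℕ} (h : M = M')
    (σ : AlgebraicClosure ℚ ≃ₐ[ℚ] AlgebraicClosure ℚ) (x : JZero M) :
    castJ h (σ • x) = σ • castJ h x := by
  subst h
  rfl

theorem castJ_injective {M M' : ℕ} (h : M = M') : Function.Injective (castJ h) := by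
  subst h
  exact fun _ _ h => h

/-- Transport of homomorphisms along an equality of levels. -/
def castH (A : Type*) [AddCommGroup A] {M M' : ℕ} (h : M = M') :
    (Additive ↥(Gamma0 M) →+ A) →+ (Additive ↥(Gamma0 M') →+ A) := by
  subst h
  exact AddMonoidHom.id _

@[simp] theorem castH_rfl (A : Type*) [AddCommGroup A] {M : ℕ}
    (ψ : Additive ↥(Gamma0 M) →+ A) : castH A (rfl : M = M) ψ = ψ := rfl

theorem castH_comp {A B : Type*} [AddCommGroup A] [AddCommGroup B] {M M' : ℕ} (h : M = M')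
    (f : A →+ B) (ψ : Additive ↥(Gamma0 M) →+ A) :
    castH B h (f.comp ψ) = f.comp (castH A h ψ) := by
  subst h
  rfl

end Casts

/-! ## New classes -/

section New

/-- `x ∈ J₀(M)(ℚ̄)` is NEW at all primes `q` with `q² ∣ M`: it lies in `newPart L q` for every
factorisation `M = L q`, `q` prime, `q ∣ L`. -/
def IsNewJ (M : ℕ) (x : JZero M) : Prop :=
  ∀ (L q : ℕ) [NeZero L] [NeZero q] (h : M = L * q), q.Prime → q ∣ L →
    castJ h x ∈ newPart L q

theorem isNewJ_zero (M : ℕ) : IsNewJ M 0 := by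
  intro L q _ _ h _ _
  rw [map_zero]
  exact zero_mem _

theorem IsNewJ.add {M : ℕ} {x y : JZero M} (hx : IsNewJ M x) (hy : IsNewJ M y) :
    IsNewJ M (x + y) := by
  intro L q _ _ h hq hqL
  rw [map_add]
  exact add_mem (hx L q h hq hqL) (hy L q h hq hqL)

theorem IsNewJ.neg {M : ℕ} {x : JZero M} (hx : IsNewJ M x) : IsNewJ M (-x) := by
  intro L q _ _ h hq hqL
  rw [map_neg]
  exact neg_mem (hx L q h hq hqL)

theorem IsNewJ.smul {M : ℕ} {x : JZero M} (hx : IsNewJ M x)
    (σ : AlgebraicClosure ℚ ≃ₐ[ℚ] AlgebraicClosure ℚ) : IsNewJ M (σ • x) := by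
  intro L q _ _ h hq hqL
  rw [castJ_smul]
  exact smul_mem_newPart L q σ (hx L q h hq hqL)

/-- `ψ ∈ Hom(Γ₀(M), A)` is NEW at all primes `q` with `q² ∣ M`: it is killed by `corA`, `corB`
for every factorisation `M = L q`, `q` prime, `q ∣ L`. -/
def IsNewH (M : ℕ) {A : Type*} [AddCommGroup A] (ψ : Additive ↥(Gamma0 M) →+ A) : Prop :=
  ∀ (L q : ℕ) [NeZero L] [NeZero q] (h : M = L * q), q.Prime → q ∣ L →
    corA L q A (castH A h ψ) = 0 ∧ corB L q A (castH A h ψ) = 0

theorem isNewH_zero (M : ℕ) (A : Type*) [AddCommGroup A] :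
    IsNewH M (0 : Additive ↥(Gamma0 M) →+ A) := by
  intro L q _ _ h _ _
  rw [map_zero, map_zero, map_zero]
  exact ⟨rfl, rfl⟩

theorem IsNewH.add {M : ℕ} {A : Type*} [AddCommGroup A] {ψ ψ' : Additive ↥(Gamma0 M) →+ A}
    (hψ : IsNewH M ψ) (hψ' : IsNewH M ψ') : IsNewH M (ψ + ψ') := by
  intro L q _ _ h hq hqL
  rw [map_add, map_add, map_add, (hψ L q h hq hqL).1, (hψ L q h hq hqL).2,
    (hψ' L q h hq hqL).1, (hψ' L q h hq hqL).2, add_zero]
  exact ⟨rfl, rfl⟩

theorem IsNewH.neg {M : ℕ} {A : Type*} [AddCommGroup A] {ψ : Additive ↥(Gamma0 M) →+ A}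
    (hψ : IsNewH M ψ) : IsNewH M (-ψ) := by
  intro L q _ _ h hq hqL
  rw [map_neg, map_neg, map_neg, (hψ L q h hq hqL).1, (hψ L q h hq hqL).2, neg_zero]
  exact ⟨rfl, rfl⟩

theorem IsNewH.zsmul {M : ℕ} {A : Type*} [AddCommGroup A] {ψ : Additive ↥(Gamma0 M) →+ A}
    (hψ : IsNewH M ψ) (n : ℤ) : IsNewH M (n • ψ) := by
  intro L q _ _ h hq hqL
  rw [map_zsmul, map_zsmul, map_zsmul, (hψ L q h hq hqL).1, (hψ L q h hq hqL).2, smul_zero]
  exact ⟨rfl, rfl⟩

/-- Newness is natural in the coefficient group. -/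
theorem IsNewH.comp {M : ℕ} {A B : Type*} [AddCommGroup A] [AddCommGroup B]
    {ψ : Additive ↥(Gamma0 M) →+ A} (hψ : IsNewH M ψ) (f : A →+ B) :
    IsNewH M (f.comp ψ) := by
  intro L q _ _ h hq hqL
  rw [castH_comp, corA_comp, corB_comp, (hψ L q h hq hqL).1, (hψ L q h hq hqL).2,
    AddMonoidHom.comp_zero]
  exact ⟨rfl, rfl⟩

/-- Newness descends along injective maps of coefficient groups. -/
theorem IsNewH.of_comp {M : ℕ} {A B : Type*} [AddCommGroup A] [AddCommGroup B]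
    {ψ : Additive ↥(Gamma0 M) →+ A} (f : A →+ B) (hf : Function.Injective f)
    (hψ : IsNewH M (f.comp ψ)) : IsNewH M ψ := by
  intro L q _ _ h hq hqL
  have h1 := hψ L q h hq hqL
  rw [castH_comp, corA_comp, corB_comp] at h1
  have key : ∀ φ : Additive ↥(Gamma0 L) →+ A, f.comp φ = 0 → φ = 0 := by
    intro φ hφ
    refine AddMonoidHom.ext fun γ => hf ?_
    rw [AddMonoidHom.zero_apply, map_zero]
    exact DFunLike.congr_fun hφ γ
  exact ⟨key _ h1.1, key _ h1.2⟩

/-- Newness is stable under the cohomological Hecke operators (J2A + J2B). -/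
theorem IsNewH.cohT (hA : CorHeckeAStatement) (hB : CorHeckeBStatement) {M : ℕ}
    {A : Type} [AddCommGroup A] {ψ : Additive ↥(Gamma0 M) →+ A} (hψ : IsNewH M ψ)
    (ℓ : ℕ) (hℓ : ℓ.Prime) (hℓM : ¬ ℓ ∣ M) :
    IsNewH M (Fermat.Agent.H21.cohT M ℓ hℓ hℓM A ψ) := by
  intro L q _ _ h hq hqL
  subst h
  have hℓL : ¬ ℓ ∣ L := fun hd => hℓM (Dvd.dvd.mul_right hd q)
  have h1 := hψ L q rfl hq hqL
  rw [castH_rfl] at h1 ⊢
  rw [hA L q hq hqL ℓ hℓ hℓL hℓM A ψ, hB L q hq hqL ℓ hℓ hℓL hℓM A ψ, h1.1, h1.2, map_zero]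
  exact ⟨rfl, rfl⟩

end New

/-! ## The new core of `J₀(M)` -/

section NCore

variable (M : ℕ) [NeZero M] (S : Finset ℕ)

/-- The Hecke word `T_{ℓ_n} ∘ ⋯ ∘ T_{ℓ_1}` on `J₀(M)(ℚ̄)` (`w = [ℓ_1, …, ℓ_n]`). -/
def wordJ : List Nat.Primes → (JZero M →+ JZero M)
  | [] => AddMonoidHom.id _
  | ℓ :: w => (wordJ w).comp (esJOp M S ℓ)

theorem wordJ_nil (x : JZero M) : wordJ M S [] x = x := rfl

theorem wordJ_cons (ℓ : Nat.Primes) (w : List Nat.Primes) (x : JZero M) :
    wordJ M S (ℓ :: w) x = wordJ M S w (esJOp M S ℓ x) := rfl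

/-- The new core: the classes all of whose Hecke translates are new. -/
def nCore : AddSubgroup (JZero M) where
  carrier := {x | ∀ w : List Nat.Primes, IsNewJ M (wordJ M S w x)}
  zero_mem' := by
    intro w
    rw [map_zero]
    exact isNewJ_zero M
  add_mem' := by
    intro x y hx hy w
    rw [map_add]
    exact (hx w).add (hy w)
  neg_mem' := by
    intro x hx w
    rw [map_neg]
    exact (hx w).neg

theorem mem_nCore {x : JZero M} :
    x ∈ nCore M S ↔ ∀ w : List Nat.Primes, IsNewJ M (wordJ M S w x) :=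
  Iff.rfl

theorem isNewJ_of_mem_nCore {x : JZero M} (hx : x ∈ nCore M S) : IsNewJ M x :=
  hx []

/-- The new core is stable under the Hecke operators. -/
theorem esJOp_mem_nCore (ℓ : Nat.Primes) {x : JZero M} (hx : x ∈ nCore M S) :
    esJOp M S ℓ x ∈ nCore M S := by
  intro w
  exact hx (ℓ :: w)

/-- The Hecke operators `esJOp` commute with the Galois action. -/
theorem esJOp_smul (ℓ : Nat.Primes) (σ : AlgebraicClosure ℚ ≃ₐ[ℚ] AlgebraicClosure ℚ)
    (x : JZero M) : esJOp M S ℓ (σ • x) = σ • esJOp M S ℓ x := by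
  obtain ⟨ℓ, hℓ⟩ := ℓ
  by_cases h : ¬ ℓ ∣ M ∧ ℓ ∉ (↑S : Set ℕ)
  · rw [esJOp_of_good M S hℓ h.1 h.2, esJOp_of_good M S hℓ h.1 h.2]
    exact Fermat.Agent.H49.heckeOperatorBar_galois M ⟨ℓ, hℓ⟩ σ x
  · rw [esJOp_of_not_good M S hℓ h, AddMonoidHom.zero_apply, AddMonoidHom.zero_apply]
    exact (smul_zero (A := JZero M) σ).symm

/-- The Hecke words commute with the Galois action. -/
theorem wordJ_smul (w : List Nat.Primes) (σ : AlgebraicClosure ℚ ≃ₐ[ℚ] AlgebraicClosure ℚ)
    (x : JZero M) : wordJ M S w (σ • x) = σ • wordJ M S w x := by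
  induction w generalizing x with
  | nil => rfl
  | cons ℓ w ih => rw [wordJ_cons, wordJ_cons, esJOp_smul, ih]

/-- The new core is stable under the Galois action. -/
theorem smul_mem_nCore (σ : AlgebraicClosure ℚ ≃ₐ[ℚ] AlgebraicClosure ℚ)
    {x : JZero M} (hx : x ∈ nCore M S) : σ • x ∈ nCore M S := by
  intro w
  rw [wordJ_smul M S w σ x]
  exact (hx w).smul σ

end NCore

/-! ## The new core of the lattice -/

section LamCore

variable (M : ℕ)

/-- The sublattice of new classes of `Hom_par(Γ₀(M), ℤ)`. -/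
def lamCore : Submodule ℤ (S31Lat M) where
  carrier := {ψ | IsNewH M (ψ : Additive ↥(Gamma0 M) →+ ℤ)}
  zero_mem' := isNewH_zero M ℤ
  add_mem' := fun {ψ ψ'} hψ hψ' => IsNewH.add hψ hψ'
  smul_mem' := fun c ψ hψ => IsNewH.zsmul hψ c

theorem mem_lamCore {ψ : S31Lat M} :
    ψ ∈ lamCore M ↔ IsNewH M (ψ : Additive ↥(Gamma0 M) →+ ℤ) := Iff.rfl

/-- The new core of the lattice is stable under the Hecke operators (J2A + J2B). -/
theorem s31LatOp_mem_lamCore (hA : CorHeckeAStatement) (hB : CorHeckeBStatement) [NeZero M]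
    (S : Finset ℕ) (ℓ : Nat.Primes) {ψ : S31Lat M} (hψ : ψ ∈ lamCore M) :
    s31LatOp M S ℓ ψ ∈ lamCore M := by
  obtain ⟨ℓ, hℓ⟩ := ℓ
  by_cases h : ¬ ℓ ∣ M ∧ ℓ ∉ (↑S : Set ℕ)
  · rw [mem_lamCore, s31LatOp_of_good M S hℓ h.1 h.2]
    exact IsNewH.cohT hA hB hψ ℓ hℓ h.1
  · rw [s31LatOp_of_not_good M S hℓ h]
    exact zero_mem _

/-- The new core of the lattice is saturated. -/
theorem lamCore_saturated (n : ℕ) (ψ : S31Lat M) (hn : n ≠ 0) (h : n • ψ ∈ lamCore M) :
    ψ ∈ lamCore M := by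
  intro L q _ _ e hq hqL
  have h1 := h L q e hq hqL
  have hcoe : ((n • ψ : S31Lat M) : Additive ↥(Gamma0 M) →+ ℤ)
      = n • (ψ : Additive ↥(Gamma0 M) →+ ℤ) := rfl
  rw [hcoe, map_nsmul, map_nsmul, map_nsmul] at h1
  have key : ∀ φ : Additive ↥(Gamma0 L) →+ ℤ, n • φ = 0 → φ = 0 := by
    intro φ hφ
    refine AddMonoidHom.ext fun γ => ?_
    have h2 : n • φ γ = 0 := by
      have := DFunLike.congr_fun hφ γ
      simpa using this
    rw [AddMonoidHom.zero_apply]
    rcases smul_eq_zero.mp h2 with h3 | h3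
    · exact absurd h3 hn
    · exact h3
  exact ⟨key _ h1.1, key _ h1.2⟩

end LamCore

end Fermat.Agent.H63.SS2

end
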