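import Fermat.Agent.H63.SS2.GlueCore

/-!
# P-SS2 (S36), J-side: Kummer maps respect the new cores; `(KC)_J` at the Carayol primes
(helper63)

* `kummerCore` : from J8a (`KummerCharStatement`), J8b (`KummerNewStatement`) and J2A/J2B: for
  every `m > 0` a Kummer embedding `κ : Λ → J₀(M)[m]` mapping `lamCore M` into `nCore M S`;
* `kcj_of_rows` : `(KC)_J` at level `L q`, `L = M' q`, `q ∤ M'`, from the geometric contract
  `(KC-FF)` at the auxiliary level, the bridge J9 and the level change J10.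
-/

set_option autoImplicit false
set_option linter.style.haveILetI false
set_option linter.unusedSectionVars false
set_option linter.unusedVariables false

noncomputable section

namespace Fermat.Agent.H63.SS2

open ModularCurve AlgebraicCurve CongruenceSubgroup Fermat.Agent.H14 Fermat.Agent.H37
open ModularCurve.Period Fermat.Agent.H23.EsA

/-! ## Kummer characters and corestriction -/

section KumChar

variable {L q : ℕ} [NeZero q]

theorem corCharA_kumChar (ζ : ℂˣ) (ψ : Additive ↥(Gamma0 (L * q)) →+ ℤ) :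
    corCharA L q (Fermat.Agent.H34.kumChar ζ ψ)
      = Fermat.Agent.H34.kumChar ζ (corA L q ℤ ψ) := by
  unfold corCharA
  rw [Fermat.Agent.H34.toAdditive_kumChar, corA_comp]
  rfl

theorem corCharB_kumChar (ζ : ℂˣ) (ψ : Additive ↥(Gamma0 (L * q)) →+ ℤ) :
    corCharB L q (Fermat.Agent.H34.kumChar ζ ψ)
      = Fermat.Agent.H34.kumChar ζ (corB L q ℤ ψ) := by
  unfold corCharB
  rw [Fermat.Agent.H34.toAdditive_kumChar, corB_comp]
  rfl

theorem kumChar_zero' {Γ : Type*} [Group Γ] (ζ : ℂˣ) :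
    Fermat.Agent.H34.kumChar ζ (0 : Additive Γ →+ ℤ) = 1 := by
  ext γ
  simp

end KumChar

/-! ## Kummer maps respect the new cores -/

section Kummer

variable (M : ℕ) [NeZero M] (S : Finset ℕ)

/-- A Kummer map with the character property of J8a maps new classes of the lattice to new
classes of `J₀(M)` (J8b). -/
theorem isNewJ_kummer (hKN : KummerNewStatement) (ι : AlgebraicClosure ℚ →+* ℂ) (m : ℕ)
    (hm : 0 < m) (ζ : ℂˣ) (κ : S31Lat M →+ JZero M)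
    (hκ : ∀ ψ : S31Lat M, TorsionCharRel M m (Fermat.Agent.H29.descentHom M ι (κ ψ))
      (Fermat.Agent.H34.kumChar ζ (ψ : Additive ↥(Gamma0 M) →+ ℤ)))
    (ψ : S31Lat M) (hψ : ψ ∈ lamCore M) : IsNewJ M (κ ψ) := by
  intro L q _ _ h hq hqL
  have h1 := hψ L q h hq hqL
  have h2 := hκ ψ
  clear hψ hκ
  subst h
  rw [castH_rfl] at h1
  rw [castJ_rfl, mem_newPart]
  obtain ⟨hA, hB⟩ := hKN L q hq hqL ι m hm (κ ψ) _ h2
  refine ⟨hA.mp ?_, hB.mp ?_⟩
  · rw [corCharA_kumChar, h1.1, kumChar_zero']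
  · rw [corCharB_kumChar, h1.2, kumChar_zero']

/-- The Hecke operators on `J₀(M)` and on the lattice correspond under a Kummer map. -/
theorem esJOp_kummer (κ : S31Lat M →+ JZero M)
    (hκ : ∀ (ℓ : ℕ) (hℓ : ℓ.Prime) (hℓN : ¬ ℓ ∣ M) (ψ ψ' : S31Lat M),
      (ψ' : Additive ↥(Gamma0 M) →+ ℤ)
          = Fermat.Agent.H21.cohT M ℓ hℓ hℓN ℤ (ψ : Additive ↥(Gamma0 M) →+ ℤ) →
        κ ψ' = heckeOperatorBar M ⟨ℓ, hℓ⟩ (κ ψ))
    (ℓ : Nat.Primes) (ψ : S31Lat M) :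
    esJOp M S ℓ (κ ψ) = κ (s31LatOp M S ℓ ψ) := by
  obtain ⟨ℓ, hℓ⟩ := ℓ
  by_cases h : ¬ ℓ ∣ M ∧ ℓ ∉ (↑S : Set ℕ)
  · rw [esJOp_of_good M S hℓ h.1 h.2]
    exact (hκ ℓ hℓ h.1 ψ _ (s31LatOp_of_good M S hℓ h.1 h.2 ψ)).symm
  · rw [esJOp_of_not_good M S hℓ h, s31LatOp_of_not_good M S hℓ h, AddMonoidHom.zero_apply,
      LinearMap.zero_apply, map_zero]

/-- **Kummer maps into the new core** (J8a + J8b + J2A + J2B). -/
theorem kummerCore (hCA : CorHeckeAStatement) (hCB : CorHeckeBStatement)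
    (hKC : KummerCharStatement M) (hKN : KummerNewStatement) :
    ∀ m : ℕ, 0 < m → ∃ κ : S31Lat M →+ JZero M,
      (∀ ψ : S31Lat M, m • κ ψ = 0) ∧
      (∀ ψ : S31Lat M, κ ψ = 0 → ∃ ψ' : S31Lat M, ψ = m • ψ') ∧
      (∀ (ℓ : ℕ) (hℓ : ℓ.Prime) (hℓN : ¬ ℓ ∣ M) (ψ ψ' : S31Lat M),
        (ψ' : Additive ↥(Gamma0 M) →+ ℤ)
            = Fermat.Agent.H21.cohT M ℓ hℓ hℓN ℤ (ψ : Additive ↥(Gamma0 M) →+ ℤ) →
          κ ψ' = heckeOperatorBar M ⟨ℓ, hℓ⟩ (κ ψ)) ∧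
      ∀ ψ ∈ lamCore M, κ ψ ∈ nCore M S := by
  intro m hm
  have hm0 : m ≠ 0 := hm.ne'
  obtain ⟨ζ, hζ⟩ : ∃ ζ : ℂˣ, IsPrimitiveRoot ζ m := by
    have h := Complex.isPrimitiveRoot_exp m hm0
    obtain ⟨ζ, hζ'⟩ := h.isUnit hm0
    exact ⟨ζ, IsPrimitiveRoot.coe_units_iff.mp (hζ' ▸ h)⟩
  let ι : AlgebraicClosure ℚ →+* ℂ := Fermat.Agent.H23.EsA.embQBar
  obtain ⟨κ, h1, h2, h3, h4⟩ := hKC ι m hm ζ hζ
  refine ⟨κ, h1, h2, h3, ?_⟩
  have key : ∀ (w : List Nat.Primes) (ψ : S31Lat M), ψ ∈ lamCore M →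
      IsNewJ M (wordJ M S w (κ ψ)) := by
    intro w
    induction w with
    | nil =>
      intro ψ hψ
      exact isNewJ_kummer M hKN ι m hm ζ κ h4 ψ hψ
    | cons ℓ w ih =>
      intro ψ hψ
      rw [wordJ_cons, esJOp_kummer M S κ h3 ℓ ψ]
      exact ih _ (s31LatOp_mem_lamCore M hCA hCB S ℓ hψ)
  intro ψ hψ w
  exact key w ψ hψ

end Kummer

/-! ## `(KC)_J` at the Carayol primes -/

section KCJ

theorem kcj_congr {L L' q : ℕ} [NeZero L] [NeZero L'] [NeZero q] (h : L = L')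
    (hk : KCJStatement L q) : KCJStatement L' q := by
  subst h
  exact hk

/-- `(KC)_J` at level `(M' q) q`, `q ∤ M'`, from the geometric contract at the auxiliary level
`M' r² q²` (`r = 2` for `q` odd, `r = 3` for `q = 2`), the bridge (J9) and two level changes
(J10). -/
theorem kcj_of_rows (hBr : BridgeStatement) (hLC : LevelChangeStatement)
    (hFF : ∀ (M' q : ℕ) [NeZero M'] [NeZero q], q.Prime → ¬ q ∣ M' → (q ≠ 2 → 4 ∣ M') →
      (q = 2 → 9 ∣ M') → Fermat.Agent.H11.SS2.NewInvariantFFStatement (M' * q) q)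
    (M' q : ℕ) [NeZero M'] [NeZero q] (hq : q.Prime) (hqM' : ¬ q ∣ M') :
    KCJStatement (M' * q) q := by
  -- the auxiliary prime
  obtain ⟨r, hr, hrq, hr4, hr9⟩ : ∃ r : ℕ, r.Prime ∧ r ≠ q ∧ (q ≠ 2 → r = 2) ∧
      (q = 2 → r = 3) := by
    by_cases h2 : q = 2
    · exact ⟨3, Nat.prime_three, by omega, fun h => absurd h2 h, fun _ => rfl⟩
    · exact ⟨2, Nat.prime_two, fun h => h2 h.symm, fun _ => rfl, fun h => absurd h h2⟩
  haveI : NeZero r := ⟨hr.ne_zero⟩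
  have hqr : ¬ q ∣ r := fun h => hrq ((Nat.prime_dvd_prime_iff_eq hq hr).mp h).symm
  have hqM1 : ¬ q ∣ M' * r * r := by
    intro h
    rcases (Nat.Prime.dvd_mul hq).mp h with h | h
    · rcases (Nat.Prime.dvd_mul hq).mp h with h | h
      · exact hqM' h
      · exact hqr h
    · exact hqr h
  have h4 : q ≠ 2 → 4 ∣ M' * r * r := by
    intro h
    rw [hr4 h, mul_assoc]
    exact Dvd.intro_left M' rfl
  have h9 : q = 2 → 9 ∣ M' * r * r := by
    intro h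
    rw [hr9 h, mul_assoc]
    exact Dvd.intro_left M' rfl
  have hk0 : KCJStatement (M' * r * r * q) q :=
    hBr (M' * r * r * q) q hq (hFF (M' * r * r) q hq hqM1 h4 h9)
  have hk1 : KCJStatement (M' * q * r * r) q := kcj_congr (by ring) hk0
  have hk2 : KCJStatement (M' * q * r) q :=
    hLC (M' * q * r) q r hq (Dvd.dvd.mul_right (Dvd.intro_left M' rfl) r) hr hrq hk1
  exact hLC (M' * q) q r hq (Dvd.intro_left M' rfl) hr hrq hk2

end KCJ

end Fermat.Agent.H63.SS2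

end
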