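import Fermat.Agent.H63.SS2.Rew2
import Fermat.Agent.H21.Coh.Hecke
import Fermat.Agent.H49.ES.EsCAdapters
import Fermat.Agent.H49.ES.GalHecke
import Fermat.Agent.H71.SS.LevelMap

/-!
# P-SS2 (S36), J-side: the two degeneracy maps (helper63)

Level `L q`, `q` prime, `q ∣ L` (so `q² ∣ L q`).

## Jacobian side (any algebraically closed field `K` of characteristic zero)

* `pic0PushAlong φ` : `Pic⁰(F') → Pic⁰(F)`, push-forward of divisor classes along
  `φ : F →ₐ[K] F'` (generic; twin of `Fermat.Agent.H71.SS.pic0PullbackAlong`);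
* `DegInputs K L q`, `degInputs` : the inputs of the two push-forwards (unconditional for `q`
  prime);
* `pushA K L q`, `pushB K L q : Pic⁰(F_{L q}) → Pic⁰(F_L)` : push-forward along the prelude
  degeneracy maps `heckeAlphaBar K L q` (inclusion) and `heckeBetaBar K L q` (`t ↦ t ^ q`);
  Galois equivariance `pushA_smul`, `pushB_smul`;
* `newPart L q : AddSubgroup (JZero (L * q))` : `ker pushA ⊓ ker pushB` over `ℚ̄`.

## Group side

* `corFamA L q k = [[1, 0], [L k, 1]]`, `corFamB q k = [[1, k], [0, q]]` (`k : ZMod q`):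
  the two families of representatives;
* `corA L q A`, `corB L q A : Hom(Γ₀(L q), A) → Hom(Γ₀(L), A)` : the operators of the two
  families (`0` if the family is not rewriting data; it is for `q ∣ L`, statement
  `CorRewStatement` of `Interfaces`);
* `cor_isParabolicHom` : both preserve parabolic classes.
-/

set_option autoImplicit false
set_option linter.style.haveILetI false
set_option linter.unusedSectionVars false
set_option linter.unusedVariables false

noncomputable section

namespace Fermat.Agent.H63.SS2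

open AlgebraicCurve ModularCurve CongruenceSubgroup Matrix.SpecialLinearGroup
open scoped MatrixGroups

/-! ## Generic push-forward of divisor classes -/

section Generic

variable {K F F' : Type*} [Field K] [Field F] [Field F'] [Algebra K F] [Algebra K F']
variable (φ : F →ₐ[K] F') (hφ : φ.toRingHom.IsIntegral)

/-- Push-forward of divisors of degree zero. -/
def degZeroPushAlong :
    Divisor.degZero (K := K) (F := F') →+ Divisor.degZero (K := K) (F := F) :=
  ((Divisor.pushforwardAlong φ hφ).comp (Divisor.degZero (K := K) (F := F')).subtype).codRestrict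
    _ (fun D => Divisor.pushforwardAlong_mem_degZero φ hφ D.2)

@[simp]
theorem coe_degZeroPushAlong (D : Divisor.degZero (K := K) (F := F')) :
    (degZeroPushAlong φ hφ D : Divisor K F) = Divisor.pushforwardAlong φ hφ (D : Divisor K F') :=
  rfl

variable (hfin : FiniteAlong K φ) (hN : NormFormulaAlong K φ hfin)

/-- Push-forward of divisor classes of degree zero. -/
def pic0PushAlong : Pic0 K F' →+ Pic0 K F :=
  QuotientAddGroup.map _ _ (degZeroPushAlong φ hφ) (by
    rintro ⟨D, hD0⟩ hD
    simp only [AddSubgroup.mem_addSubgroupOf] at hD ⊢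
    exact Divisor.isPrincipal_pushforwardAlong φ hφ hfin hN hD)

theorem pic0PushAlong_mk (D : Divisor.degZero (K := K) (F := F')) :
    pic0PushAlong φ hφ hfin hN (Pic0.mk D) = Pic0.mk (degZeroPushAlong φ hφ D) :=
  rfl

/-- The push-forward is equivariant for a pair of intertwined semilinear automorphisms. -/
theorem pic0PushAlong_smul {g : SemilinearAut K F} {g' : SemilinearAut K F'}
    (h : SemilinearAut.IntertwinesAlong φ.toRingHom g g') (x : Pic0 K F') :
    pic0PushAlong φ hφ hfin hN (g' • x) = g • pic0PushAlong φ hφ hfin hN x := by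
  obtain ⟨D, rfl⟩ := Pic0.mk_surjective x
  rw [SemilinearAut.pic0_smul_mk, pic0PushAlong_mk, pic0PushAlong_mk,
    SemilinearAut.pic0_smul_mk]
  refine congrArg Pic0.mk (Subtype.ext ?_)
  rw [coe_degZeroPushAlong, SemilinearAut.coe_degZeroSMulHom,
    SemilinearAut.coe_degZeroSMulHom, coe_degZeroPushAlong]
  exact Fermat.Agent.H49.pushforwardAlong_smul_of_intertwines φ hφ h (D : Divisor K F')

end Generic

/-! ## The two degeneracy push-forwards -/

section Push

variable (K : Type) [Field K] [Algebra ℚ K] (L q : ℕ) [NeZero L] [NeZero q]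

/-- The inputs of the push-forwards along the two degeneracy maps. -/
def DegInputs : Prop :=
  ∃ (_ : HeckeAlphaBarIntegral K L q) (_ : HeckeBetaBarIntegral K L q)
    (hfα : FiniteAlong K (heckeAlphaBar K L q)) (hfβ : FiniteAlong K (heckeBetaBar K L q)),
    NormFormulaAlong K (heckeAlphaBar K L q) hfα ∧ NormFormulaAlong K (heckeBetaBar K L q) hfβ

/-- The inputs hold over every algebraically closed field, for `q` prime. -/
theorem degInputs [IsAlgClosed K] (hq : q.Prime) : DegInputs K L q := by
  haveI : CharZero K := algebraRat.charZero K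
  obtain ⟨hfα, hfβ⟩ := Fermat.Agent.H54.degeneracyFinite K L q hq
  have hα : HeckeAlphaBarIntegral K L q := Fermat.Agent.H9.ESD.lc_isIntegral_of_finiteAlong _ hfα
  have hβ : HeckeBetaBarIntegral K L q := Fermat.Agent.H9.ESD.lc_isIntegral_of_finiteAlong _ hfβ
  haveI hP : HasPrincipalDivisors K ↥(laurentBaseChange K (modularFunctionFieldFull (L * q))) :=
    Fermat.Agent.H93.esc_pd_of_isFunctionField K (Fermat.Agent.H54.isFunctionField K) (L * q)
  refine ⟨hα, hβ, hfα, hfβ, ?_, ?_⟩
  · letI := algebraAlong (heckeAlphaBar K L q)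
    haveI := isScalarTower_along (heckeAlphaBar K L q)
    haveI : Module.Finite ↥(laurentBaseChange K (modularFunctionFieldFull L))
        ↥(laurentBaseChange K (modularFunctionFieldFull (L * q))) := hfα
    exact Fermat.Agent.H49.relNormFormulaStatement K
      ↥(laurentBaseChange K (modularFunctionFieldFull L))
      ↥(laurentBaseChange K (modularFunctionFieldFull (L * q)))
      (Fermat.Agent.H54.isFunctionField K L)
  · letI := algebraAlong (heckeBetaBar K L q)
    haveI := isScalarTower_along (heckeBetaBar K L q)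
    haveI : Module.Finite ↥(laurentBaseChange K (modularFunctionFieldFull L))
        ↥(laurentBaseChange K (modularFunctionFieldFull (L * q))) := hfβ
    exact Fermat.Agent.H49.relNormFormulaStatement K
      ↥(laurentBaseChange K (modularFunctionFieldFull L))
      ↥(laurentBaseChange K (modularFunctionFieldFull (L * q)))
      (Fermat.Agent.H54.isFunctionField K L)

open Classical in
/-- Push-forward of divisor classes along `α` (the inclusion `F_L ⊆ F_{L q}`). -/
def pushA : Pic0 K ↥(laurentBaseChange K (modularFunctionFieldFull (L * q))) →+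
    Pic0 K ↥(laurentBaseChange K (modularFunctionFieldFull L)) :=
  if h : DegInputs K L q then
    pic0PushAlong (heckeAlphaBar K L q) h.1 h.2.2.1 h.2.2.2.2.1
  else 0

open Classical in
/-- Push-forward of divisor classes along `β` (`t ↦ t ^ q`). -/
def pushB : Pic0 K ↥(laurentBaseChange K (modularFunctionFieldFull (L * q))) →+
    Pic0 K ↥(laurentBaseChange K (modularFunctionFieldFull L)) :=
  if h : DegInputs K L q then
    pic0PushAlong (heckeBetaBar K L q) h.2.1 h.2.2.2.1 h.2.2.2.2.2
  else 0

variable {K L q}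

theorem pushA_eq (hα : HeckeAlphaBarIntegral K L q) (hfα : FiniteAlong K (heckeAlphaBar K L q))
    (hNα : NormFormulaAlong K (heckeAlphaBar K L q) hfα) (h : DegInputs K L q) :
    pushA K L q = pic0PushAlong (heckeAlphaBar K L q) hα hfα hNα := by
  rw [pushA, dif_pos h]

theorem pushB_eq (hβ : HeckeBetaBarIntegral K L q) (hfβ : FiniteAlong K (heckeBetaBar K L q))
    (hNβ : NormFormulaAlong K (heckeBetaBar K L q) hfβ) (h : DegInputs K L q) :
    pushB K L q = pic0PushAlong (heckeBetaBar K L q) hβ hfβ hNβ := by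
  rw [pushB, dif_pos h]

/-- `pushA` on the class of a divisor. -/
theorem pushA_mk (h : DegInputs K L q) (hα : HeckeAlphaBarIntegral K L q)
    (D : Divisor.degZero (K := K)
      (F := ↥(laurentBaseChange K (modularFunctionFieldFull (L * q))))) :
    pushA K L q (Pic0.mk D) = Pic0.mk (degZeroPushAlong (heckeAlphaBar K L q) hα D) := by
  rw [pushA_eq hα h.2.2.1 h.2.2.2.2.1 h]
  rfl

/-- `pushB` on the class of a divisor. -/
theorem pushB_mk (h : DegInputs K L q) (hβ : HeckeBetaBarIntegral K L q)
    (D : Divisor.degZero (K := K)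
      (F := ↥(laurentBaseChange K (modularFunctionFieldFull (L * q))))) :
    pushB K L q (Pic0.mk D) = Pic0.mk (degZeroPushAlong (heckeBetaBar K L q) hβ D) := by
  rw [pushB_eq hβ h.2.2.2.1 h.2.2.2.2.2 h]
  rfl

/-- `pushA` commutes with the Galois action (unconditional). -/
theorem pushA_smul (σ : K ≃ₐ[ℚ] K)
    (x : Pic0 K ↥(laurentBaseChange K (modularFunctionFieldFull (L * q)))) :
    pushA K L q (σ • x) = σ • pushA K L q x := by
  by_cases h : DegInputs K L q
  · rw [pushA_eq h.1 h.2.2.1 h.2.2.2.2.1 h, galois_smul_pic0_def, galois_smul_pic0_def]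
    exact pic0PushAlong_smul _ h.1 h.2.2.1 h.2.2.2.2.1
      (Fermat.Agent.H49.intertwines_heckeAlphaBar K L q σ) x
  · rw [pushA, dif_neg h, AddMonoidHom.zero_apply, AddMonoidHom.zero_apply, smul_zero]

/-- `pushB` commutes with the Galois action (unconditional). -/
theorem pushB_smul (σ : K ≃ₐ[ℚ] K)
    (x : Pic0 K ↥(laurentBaseChange K (modularFunctionFieldFull (L * q)))) :
    pushB K L q (σ • x) = σ • pushB K L q x := by
  by_cases h : DegInputs K L q
  · rw [pushB_eq h.2.1 h.2.2.2.1 h.2.2.2.2.2 h, galois_smul_pic0_def, galois_smul_pic0_def]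
    exact pic0PushAlong_smul _ h.2.1 h.2.2.2.1 h.2.2.2.2.2
      (Fermat.Agent.H49.intertwines_heckeBetaBar K L q σ) x
  · rw [pushB, dif_neg h, AddMonoidHom.zero_apply, AddMonoidHom.zero_apply, smul_zero]

end Push

/-! ## The new part of `J₀(L q)(ℚ̄)` -/

section NewPart

variable (L q : ℕ) [NeZero L] [NeZero q]

/-- The `q`-new part `ker π_{1*} ⊓ ker π_{2*}` of `J₀(L q)(ℚ̄)`. -/
def newPart : AddSubgroup (JZero (L * q)) :=
  (pushA (AlgebraicClosure ℚ) L q).ker ⊓ (pushB (AlgebraicClosure ℚ) L q).ker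

theorem mem_newPart {x : JZero (L * q)} :
    x ∈ newPart L q ↔
      pushA (AlgebraicClosure ℚ) L q x = 0 ∧ pushB (AlgebraicClosure ℚ) L q x = 0 :=
  Iff.rfl

/-- The new part is stable under the Galois action. -/
theorem smul_mem_newPart (σ : AlgebraicClosure ℚ ≃ₐ[ℚ] AlgebraicClosure ℚ) {x : JZero (L * q)}
    (hx : x ∈ newPart L q) : σ • x ∈ newPart L q := by
  rw [mem_newPart] at hx ⊢
  rw [pushA_smul, pushB_smul, hx.1, hx.2]
  have hz : σ • (0 : JZero L) = 0 := smul_zero (A := JZero L) σ
  exact ⟨hz, hz⟩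

end NewPart

/-! ## The two families of representatives and the corestrictions -/

section Cor

/-- The matrix `[[1, 0], [c, 1]]`. -/
def lowerUni (c : ℤ) : SL(2, ℤ) :=
  ⟨!![1, 0; c, 1], by rw [Matrix.det_fin_two_of]; ring⟩

@[simp] theorem lowerUni_coe (c : ℤ) :
    ((lowerUni c : SL(2, ℤ)) : Matrix (Fin 2) (Fin 2) ℤ) = !![1, 0; c, 1] := rfl

/-- Representatives of `Γ₀(L q) \ Γ₀(L)` (`q ∣ L`): `[[1, 0], [L k, 1]]`, `k : ZMod q`. -/
def corFamA (L q : ℕ) (k : ZMod q) : GL (Fin 2) ℝ :=
  mapGL ℝ (lowerUni ((L : ℤ) * (k.val : ℤ)))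

/-- The second family (`q ∣ L`): `[[1, k], [0, q]]`, `k : ZMod q`. -/
def corFamB (q : ℕ) (k : ZMod q) : GL (Fin 2) ℝ :=
  ModularForm.heckeMatrix q k.val

variable (L q : ℕ) [NeZero q]

open Classical in
/-- The corestriction `Hom(Γ₀(L q), A) → Hom(Γ₀(L), A)` along the inclusion
(the transfer; `0` if `corFamA` is not rewriting data). -/
def corA (A : Type*) [AddCommGroup A] :
    (Additive (Gamma0 (L * q)) →+ A) →+ (Additive (Gamma0 L) →+ A) :=
  if h : Rew2 (Fermat.Agent.H21.gamma0ToGL (L * q)) (Fermat.Agent.H21.gamma0ToGL L)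
      (corFamA L q) then h.op A else 0

open Classical in
/-- The corestriction `Hom(Γ₀(L q), A) → Hom(Γ₀(L), A)` along `γ ↦ δ γ δ⁻¹`,
`δ = diag(q, 1)` (`0` if `corFamB` is not rewriting data). -/
def corB (A : Type*) [AddCommGroup A] :
    (Additive (Gamma0 (L * q)) →+ A) →+ (Additive (Gamma0 L) →+ A) :=
  if h : Rew2 (Fermat.Agent.H21.gamma0ToGL (L * q)) (Fermat.Agent.H21.gamma0ToGL L)
      (corFamB q) then h.op A else 0

variable {L q}

theorem corA_eq (h : Rew2 (Fermat.Agent.H21.gamma0ToGL (L * q)) (Fermat.Agent.H21.gamma0ToGL L)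
    (corFamA L q)) (A : Type*) [AddCommGroup A] : corA L q A = h.op A := by
  rw [corA, dif_pos h]

theorem corB_eq (h : Rew2 (Fermat.Agent.H21.gamma0ToGL (L * q)) (Fermat.Agent.H21.gamma0ToGL L)
    (corFamB q)) (A : Type*) [AddCommGroup A] : corB L q A = h.op A := by
  rw [corB, dif_pos h]

/-- Naturality of `corA` in the coefficients. -/
theorem corA_comp {A B : Type*} [AddCommGroup A] [AddCommGroup B] (u : A →+ B)
    (φ : Additive (Gamma0 (L * q)) →+ A) : corA L q B (u.comp φ) = u.comp (corA L q A φ) := by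
  by_cases h : Rew2 (Fermat.Agent.H21.gamma0ToGL (L * q)) (Fermat.Agent.H21.gamma0ToGL L)
      (corFamA L q)
  · rw [corA_eq h, corA_eq h]
    exact h.op_comp u φ
  · rw [corA, dif_neg h, corA, dif_neg h, AddMonoidHom.zero_apply, AddMonoidHom.zero_apply,
      AddMonoidHom.comp_zero]

/-- Naturality of `corB` in the coefficients. -/
theorem corB_comp {A B : Type*} [AddCommGroup A] [AddCommGroup B] (u : A →+ B)
    (φ : Additive (Gamma0 (L * q)) →+ A) : corB L q B (u.comp φ) = u.comp (corB L q A φ) := by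
  by_cases h : Rew2 (Fermat.Agent.H21.gamma0ToGL (L * q)) (Fermat.Agent.H21.gamma0ToGL L)
      (corFamB q)
  · rw [corB_eq h, corB_eq h]
    exact h.op_comp u φ
  · rw [corB, dif_neg h, corB, dif_neg h, AddMonoidHom.zero_apply, AddMonoidHom.zero_apply,
      AddMonoidHom.comp_zero]

/-- Generic preservation of parabolic classes by the operator of a family of matrices. -/
theorem op_isParabolicHom {M N : ℕ} {X : Type*} [Fintype X] {α : X → GL (Fin 2) ℝ}
    (h : Rew2 (Fermat.Agent.H21.gamma0ToGL M) (Fermat.Agent.H21.gamma0ToGL N) α)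
    {A : Type*} [AddCommGroup A] (φ : Additive (Gamma0 M) →+ A)
    (hφ : ModularCurve.Period.IsParabolicHom (Gamma0 M) φ) :
    ModularCurve.Period.IsParabolicHom (Gamma0 N) (h.op A φ) := by
  intro γ hγ
  refine h.op_kills
    (fun γ : Gamma0 N => ((γ : SL(2, ℤ)) : Matrix (Fin 2) (Fin 2) ℤ).trace ^ 2 = 4)
    (fun κ : Gamma0 M => ((κ : SL(2, ℤ)) : Matrix (Fin 2) (Fin 2) ℤ).trace ^ 2 = 4)
    ?_ φ (fun κ hκ => hφ κ hκ) γ hγ
  intro γ hγ k _ x κ e
  have h1 := Fermat.Agent.H21.sl_trace_pow_sq (γ : SL(2, ℤ)) hγ k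
  have h2 := Fermat.Agent.H21.sl_trace_eq_of_conj (α x) ((γ : SL(2, ℤ)) ^ k) (κ : SL(2, ℤ))
    (by simpa using e)
  show ((κ : SL(2, ℤ)) : Matrix (Fin 2) (Fin 2) ℤ).trace ^ 2 = 4
  rw [h2]
  exact h1

/-- `corA` preserves parabolic classes (unconditional). -/
theorem corA_isParabolicHom {A : Type*} [AddCommGroup A] (φ : Additive (Gamma0 (L * q)) →+ A)
    (hφ : ModularCurve.Period.IsParabolicHom (Gamma0 (L * q)) φ) :
    ModularCurve.Period.IsParabolicHom (Gamma0 L) (corA L q A φ) := by
  by_cases h : Rew2 (Fermat.Agent.H21.gamma0ToGL (L * q)) (Fermat.Agent.H21.gamma0ToGL L)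
      (corFamA L q)
  · rw [corA_eq h]
    exact op_isParabolicHom h φ hφ
  · rw [corA, dif_neg h]
    intro γ _
    rfl

/-- `corB` preserves parabolic classes (unconditional). -/
theorem corB_isParabolicHom {A : Type*} [AddCommGroup A] (φ : Additive (Gamma0 (L * q)) →+ A)
    (hφ : ModularCurve.Period.IsParabolicHom (Gamma0 (L * q)) φ) :
    ModularCurve.Period.IsParabolicHom (Gamma0 L) (corB L q A φ) := by
  by_cases h : Rew2 (Fermat.Agent.H21.gamma0ToGL (L * q)) (Fermat.Agent.H21.gamma0ToGL L)
      (corFamB q)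
  · rw [corB_eq h]
    exact op_isParabolicHom h φ hφ
  · rw [corB, dif_neg h]
    intro γ _
    rfl

end Cor

end Fermat.Agent.H63.SS2

end
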