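import Fermat.Agent.H63.SS2.Glue
import Fermat.Agent.H77.SS2J.CorRew
import Fermat.Agent.H30.SS2.CorHeckeA
import Fermat.Agent.H33.SS2.CorHeckeB
import Fermat.Agent.H98.SS2.CorRes
import Fermat.Agent.H69.SS2.NewClass
import Fermat.Agent.H27.SS2.DegB
import Fermat.Agent.H88.SS2.NormRepA
import Fermat.Agent.H57.SS2.NormRepB
import Fermat.Agent.H44.SS2.KummerPush
import Fermat.Agent.H99.SS2.KummerChar
import Fermat.Agent.H37.SS2.KummerNew
import Fermat.Agent.H32.SS2.Bridge
import Fermat.Agent.H75.SS2LevelChange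

/-!
# P-SS2 (S36), J-side: assembly of the landed rows (helper63)

* `kummerPush_all`, `kummerNew_all` : J7, J8b unconditional (from J1, J5A/B, J6A/B);
* `levelChange_of_pull` : J10 from J7' (`KummerPullStatement`);
* `carayolLattice_of_pull_ff` : `Fermat.Agent.H52.CarayolLatticeStatement` from
  `KummerPullStatement` (row J7') and the geometric contract `(KC-FF)`.

Rows: J1 helper77, J2A helper30, J2B helper33, J3 helper98, J4 helper69, J5 helper27,
J6A helper88, J6B helper57, J7 helper44, J8a helper99, J8b helper37, J9 helper32,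
J10 helper75.
-/

set_option autoImplicit false

namespace Fermat.Agent.H63.SS2

/-- J7 (KUM-PUSH), unconditional. -/
theorem kummerPush_all : KummerPushStatement :=
  Fermat.Agent.H44.SS2.kummerPush
    (Fermat.Agent.H88.SS2.degNormRepA Fermat.Agent.H27.SS2.degDegreeA Fermat.Agent.H77.corRew)
    (Fermat.Agent.H57.SS2.degNormRepB Fermat.Agent.H27.SS2.degDegreeB Fermat.Agent.H77.corRew)
    Fermat.Agent.H77.corRew

/-- J8b (KUM-NEW), unconditional. -/
theorem kummerNew_all : KummerNewStatement :=
  Fermat.Agent.H37.SS2.kummerNew kummerPush_all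

/-- J4 (NEW-C), unconditional. -/
theorem newClass_all : NewClassStatement :=
  Fermat.Agent.H69.SS2.newClass Fermat.Agent.H30.SS2.corHeckeA Fermat.Agent.H33.SS2.corHeckeB

/-- J10 (LEVEL-CHANGE) from J7' (KUM-PULL). -/
theorem levelChange_of_pull (hpull : KummerPullStatement) : LevelChangeStatement :=
  Fermat.Agent.H75.SS2.levelChange kummerNew_all hpull
    (Fermat.Agent.H98.SS2.corRes Fermat.Agent.H77.corRew)

/-- **The Carayol lattice statement from J7' (KUM-PULL) and the geometric contract (KC-FF).** -/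
theorem carayolLattice_of_pull_ff (hpull : KummerPullStatement)
    (hFF : ∀ (M' q : ℕ) [NeZero M'] [NeZero q], q.Prime → ¬ q ∣ M' → (q ≠ 2 → 4 ∣ M') →
      (q = 2 → 9 ∣ M') → Fermat.Agent.H11.SS2.NewInvariantFFStatement (M' * q) q) :
    Fermat.Agent.H52.CarayolLatticeStatement :=
  carayolLattice_of_jside Fermat.Agent.H30.SS2.corHeckeA Fermat.Agent.H33.SS2.corHeckeB
    newClass_all (fun N _ => Fermat.Agent.H99.SS2.kummerChar N) kummerNew_all
    Fermat.Agent.H32.SS2Bridge.bridge (levelChange_of_pull hpull) hFF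

end Fermat.Agent.H63.SS2
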